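import Fermat.Agent.S48.TNV.KappaKer
import Fermat.Agent.S48.NVH.Has
import Fermat.Agent.S48.PER1.Lattice
import Fermat.Agent.S48.GES1.Main

set_option autoImplicit false

/-!
# S48 / TNV : `κ_m` is compatible with the Hecke and diamond operators

`κ_m : PER1.Lat (Gam N) →+ GES1.VB (GES1.F0 N) m` (`T24.NV.kappa`), `kappa_ker`, and
* `kappa_latT` : `κ (latT ℓ ψ) = TV (κ ψ)`, `TV` = the operator of `GES1.heckeT` with `g0 = σ_ℓ⁻¹` (`NVH.g0 N ℓ`);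
* `kappa_latD` : `κ (latD d ψ) = diaV δ⁻¹ (κ ψ)` for any `δ ∈ Γ₀(N)` with lower right entry `d`.
-/

open UpperHalfPlane ModularForm CongruenceSubgroup ModularCurve.Period
open scoped MatrixGroups Manifold

namespace Fermat.Agent.T24.NV

open Fermat.Agent.S24 Fermat.Agent.S48

theorem hasChr_iff (N : ℕ) [NeZero N] [Cond N] (m : ℕ) (f : FN N) (χ : Chr N) :
    NVH.HasChr N m f χ ↔ Ch.HasChar N m f χ := Iff.rfl

theorem expChrG_eq (N m : ℕ) [Cond N] (ψ : Additive (Gam N) →+ ℤ) :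
    NVH.expChrG (Gam N) m ψ = expChr N m ψ := rfl

/-- **Hecke equivariance of `κ`.** -/
theorem kappa_latT (N m ℓ : ℕ) [NeZero N] [Cond N] [NeZero m] [NeZero ℓ] (hℓ : ℓ.Prime)
    (hℓN : ¬ ℓ ∣ N) (hG : GES1.G0 N ℓ (NVH.g0 N ℓ))
    (ψ : PER1.Lat (Gam N)) :
    kappa N m (PER1.latT N (Gam N) ℓ ψ) = (GES1.heckeT hℓ hℓN hG).TV m (kappa N m ψ) := by
  have hm : 0 < m := Nat.pos_of_ne_zero (NeZero.ne m)
  rw [kappa_apply N m ψ, GES1.HeckeAt.TV_mk, kappa_eq_mk_iff]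
  have h1 := NVH.hasChr_heckeFT N hℓ hℓN hG hm ((hasChr_iff N m _ _).2 (kappaRep_spec N m ψ))
  rw [← expChrG_eq, NVH.heckeChrG_expChrG N (Gam N) m hℓ ψ.1 (PER1.latT N (Gam N) ℓ ψ).1
    (fun γ => PER1.latT_apply N (Gam N) hℓ hℓN ψ γ)] at h1
  exact h1

/-- **diamond equivariance of `κ`.** -/
theorem kappa_latD (N m : ℕ) [NeZero N] [Cond N] [NeZero m] (d : (ZMod N)ˣ) (δ : Gamma0 N)
    (hδ : W1.lr N (δ : SL(2, ℤ)) = d) (ψ : PER1.Lat (Gam N)) :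
    kappa N m (PER1.latD N (Gam N) d ψ) = GES1.diaV N m δ⁻¹ (kappa N m ψ) := by
  rw [kappa_apply N m ψ, GES1.diaV_mk, kappa_eq_mk_iff]
  have h1 := NVH.hasChr_diaF N δ ((hasChr_iff N m _ _).2 (kappaRep_spec N m ψ))
  rw [← expChrG_eq, NVH.diaChrG_expChrG N (Gam N) m δ ψ.1 (PER1.latD N (Gam N) d ψ).1
    (fun γ => PER1.latD_apply N (Gam N) d δ hδ ψ γ)] at h1
  exact h1

end Fermat.Agent.T24.NV
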