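import Fermat.Agent.S48.TNV.Kappa

set_option autoImplicit false

/-!
# NV task E2b-KappaKer

See the header of `Fermat/Agent/NV/Kappa.lean` for the sketches.
-/

open UpperHalfPlane ModularForm CongruenceSubgroup ModularCurve.Period
open scoped MatrixGroups Manifold

namespace Fermat.Agent.T24.NV

open Fermat.Agent.S24 Fermat.Agent.S16

theorem kappa_ker (N m : ℕ) [NeZero N] [NeZero m] [Cond N] (ψ : LatN N) (h : kappa N m ψ = 0) :
    ∃ ψ' : LatN N, ψ = m • ψ' := by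
  have hm : 0 < m := Nat.pos_of_ne_zero (NeZero.ne m)
  have hm' : (m : ℤ) ≠ 0 := by exact_mod_cast hm.ne'
  rw [kappa_apply, GES.Vm.mk_eq_zero_iff] at h
  obtain ⟨w, hw⟩ := h
  have h1 := kappaRep_spec N m ψ
  rw [← hw] at h1
  have h2 : Ch.HasChar N m (((w ^ m : (FN N)ˣ)) : FN N) 1 := by
    rw [Units.val_pow_eq_pow_val]
    exact Ch.hasChar_pow N m (w : FN N) w.ne_zero
  have h3 : expChr N m ψ.1 = 1 := Ch.HasChar.unique hm h1 h2
  rw [expChr_eq_one_iff N m hm] at h3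
  let φ : Additive (Gam N) →+ ℤ :=
    AddMonoidHom.mk' (fun γ => ψ.1 γ / (m : ℤ)) (by
      intro a b
      rw [map_add]
      exact Int.add_ediv_of_dvd_left (h3 a))
  have hφ : ∀ γ, (m : ℤ) * φ γ = ψ.1 γ := fun γ => Int.mul_ediv_cancel' (h3 γ)
  have hpar : φ ∈ parabolicHoms ℤ (Gam N) ℤ := by
    rw [mem_parabolicHoms_iff]
    intro γ hγ
    have h4 := (mem_parabolicHoms_iff.mp ψ.2) γ hγ
    have h5 := hφ (Additive.ofMul γ)
    rw [h4] at h5
    exact (mul_eq_zero.mp h5).resolve_left hm'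
  refine ⟨⟨φ, hpar⟩, ?_⟩
  apply Subtype.ext
  have h6 : ((m • (⟨φ, hpar⟩ : LatN N) : LatN N) : Additive (Gam N) →+ ℤ) = m • φ := rfl
  rw [h6]
  refine DFunLike.ext _ _ fun γ => ?_
  rw [AddMonoidHom.nsmul_apply, nsmul_eq_mul, hφ]

end Fermat.Agent.T24.NV
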