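import Fermat.Agent.S48.TNV.RootUnity

set_option autoImplicit false

/-!
# NV task A2-Equiv

The character of a root of an invariant function.

SKETCH.  For `γ ∈ Γ₀(N)`, `z ↦ h (γ z)` is holomorphic (`holB_mdiff_act`, `act γ⁻¹`) and has the same
`m`-th power as `h`; `eq_mul_of_pow_eq` gives `ζ_γ`; it is unique (and `≠ 0`) because `h ≠ 0`;
multiplicativity follows from uniqueness.
-/

open UpperHalfPlane ModularForm CongruenceSubgroup
open scoped MatrixGroups Manifold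

namespace Fermat.Agent.T24.NV

open Fermat.Agent.S24

theorem IsEqv.unique {N : ℕ} [Cond N] {χ χ' : Chr N} {h : ℍ → ℂ} (h0 : h ≠ 0) (h1 : IsEqv N χ h)
    (h2 : IsEqv N χ' h) : χ = χ' := by
  obtain ⟨z, hz⟩ := Function.ne_iff.1 h0
  ext γ
  exact mul_right_cancel₀ hz ((h1 γ z).symm.trans (h2 γ z))

theorem IsEqv.mul {N : ℕ} [Cond N] {χ χ' : Chr N} {h h' : ℍ → ℂ} (h1 : IsEqv N χ h)
    (h2 : IsEqv N χ' h') : IsEqv N (χ * χ') (h * h') := by
  intro γ z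
  rw [Pi.mul_apply, Pi.mul_apply, h1 γ z, h2 γ z, MonoidHom.mul_apply, Units.val_mul]
  ring

theorem IsEqv.pow {N : ℕ} [Cond N] {χ : Chr N} {h : ℍ → ℂ} (h1 : IsEqv N χ h) (k : ℕ) :
    IsEqv N (χ ^ k) (h ^ k) := by
  intro γ z
  rw [Pi.pow_apply, Pi.pow_apply, h1 γ z, MonoidHom.pow_apply, Units.val_pow_eq_pow_val, mul_pow]

/-- `act` in terms of `IsEqv`. -/
theorem IsEqv.act_eq {N : ℕ} [Cond N] {χ : Chr N} {h : ℍ → ℂ} (h1 : IsEqv N χ h) (γ : Gam N) :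
    act (γ : SL(2, ℤ)) h = fun z => (((χ γ)⁻¹ : ℂˣ) : ℂ) * h z := by
  funext z
  rw [act_apply, ← map_inv]
  exact h1 γ⁻¹ z

/-- cancellation: if `h * c` is `χ`-equivariant, `c ≠ 0` is holomorphic and invariant and `h` is holomorphic, then
`h` is `χ`-equivariant. -/
theorem IsEqv.of_mul {N : ℕ} [Cond N] {χ : Chr N} {h c : ℍ → ℂ} (hh : MDiff h) (hc : MDiff c) (c0 : c ≠ 0)
    (h1 : IsEqv N χ (h * c)) (h2 : IsEqv N 1 c) : IsEqv N χ h := by
  intro γ z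
  have hmd : MDiff fun z => h ((γ : SL(2, ℤ)) • z) - ((χ γ : ℂˣ) : ℂ) * h z := by
    have e1 : MDiff (act ((γ : SL(2, ℤ))⁻¹) h) := holB_mdiff_act hh _
    have e2 : (act ((γ : SL(2, ℤ))⁻¹) h) = fun z => h ((γ : SL(2, ℤ)) • z) := by
      funext z
      rw [act_apply, inv_inv]
    rw [e2] at e1
    exact e1.sub (mdifferentiable_const.mul hh)
  rcases eq_zero_or_eq_zero_of_mul hmd hc (fun w => by
    have e1 := h1 γ w
    have e2 := h2 γ w
    rw [Pi.mul_apply, Pi.mul_apply, e2] at e1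
    simp only [MonoidHom.one_apply, Units.val_one, one_mul] at e1
    rw [sub_mul, e1]
    ring) with h' | h'
  · exact sub_eq_zero.1 (congrFun h' z)
  · exact absurd h' c0

theorem exists_chr {N m : ℕ} [Cond N] (hm : 0 < m) {h : ℍ → ℂ} (hh : MDiff h) (h0 : h ≠ 0)
    (hinv : ∀ (γ : Gam N) (z : ℍ), h ((γ : SL(2, ℤ)) • z) ^ m = h z ^ m) :
    ∃ χ : Chr N, IsEqv N χ h ∧ χ ^ m = 1 := by
  obtain ⟨z₀, hz₀⟩ := Function.ne_iff.1 h0
  have hex : ∀ γ : Gam N, ∃ ζ : ℂ, ζ ^ m = 1 ∧ ∀ z, h ((γ : SL(2, ℤ)) • z) = ζ * h z := by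
    intro γ
    have e1 : MDiff (act ((γ : SL(2, ℤ))⁻¹) h) := holB_mdiff_act hh _
    have e2 : (act ((γ : SL(2, ℤ))⁻¹) h) = fun z => h ((γ : SL(2, ℤ)) • z) := by
      funext z
      rw [act_apply, inv_inv]
    rw [e2] at e1
    exact eq_mul_of_pow_eq hm e1 hh (hinv γ)
  choose ζ hζ1 hζ2 using hex
  have hone : ζ 1 = 1 := by
    have := hζ2 1 z₀
    rw [Subgroup.coe_one, one_smul] at this
    exact (mul_right_cancel₀ hz₀ ((one_mul _).trans this)).symm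
  have hmul : ∀ γ δ, ζ (γ * δ) = ζ γ * ζ δ := by
    intro γ δ
    have e1 := hζ2 (γ * δ) z₀
    rw [Subgroup.coe_mul, mul_smul, hζ2 γ, hζ2 δ, ← mul_assoc] at e1
    exact (mul_right_cancel₀ hz₀ e1).symm
  let χ₀ : Gam N →* ℂ := { toFun := ζ, map_one' := hone, map_mul' := hmul }
  refine ⟨χ₀.toHomUnits, fun γ z => hζ2 γ z, ?_⟩
  ext γ
  rw [MonoidHom.pow_apply, Units.val_pow_eq_pow_val]
  exact hζ1 γ

end Fermat.Agent.T24.NV
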