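import Fermat.Agent.S48.TNV.RootBall
import Fermat.Agent.S48.TNV.RootUnity

set_option autoImplicit false

/-!
# NV task A1b-Root

A holomorphic function on `ℍ`, all of whose zeros have multiplicity divisible by `m`, is an `m`-th
power of a holomorphic function.

Proof: for every `z` there is a disc containing `z` and a base point `z₀` whose closure lies in the
upper half plane; on that disc there is a root (`exists_root_on_ball`), normalised at `z₀`; two
normalised roots agree on the (convex) intersection of their discs.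
-/

open UpperHalfPlane ModularForm CongruenceSubgroup
open scoped MatrixGroups Manifold

namespace Fermat.Agent.T24.NV

open Fermat.Agent.S24

namespace Root

open Metric

/-- bridge between the order of the Taylor series and the analytic order. -/
theorem order_bridge {y : ℍ → ℂ} (hy : MDiff y) (hne : y ≠ 0) (τ : ℍ) :
    ∃ n : ℕ, (TPt τ ⟨y, hy⟩).order = n ∧ analyticOrderAt (y ∘ ofComplex) (τ : ℂ) = n := by
  have hP : taylor_ser (y ∘ ofComplex) τ ≠ 0 := fun h => hne (taylor_eq_zero_of_ser hy τ h)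
  obtain ⟨n, hn⟩ : ∃ n, (taylor_ser (y ∘ ofComplex) τ).coeff n ≠ 0 := by
    by_contra hcon
    push Not at hcon
    exact hP (PowerSeries.ext (by simpa using hcon))
  classical
  let n₀ := Nat.find (⟨n, hn⟩ : ∃ n, (taylor_ser (y ∘ ofComplex) τ).coeff n ≠ 0)
  have h1 : (taylor_ser (y ∘ ofComplex) τ).coeff n₀ ≠ 0 :=
    Nat.find_spec (⟨n, hn⟩ : ∃ n, (taylor_ser (y ∘ ofComplex) τ).coeff n ≠ 0)
  have h0 : ∀ k < n₀, (taylor_ser (y ∘ ofComplex) τ).coeff k = 0 := fun k hk => by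
    have := Nat.find_min (⟨n, hn⟩ : ∃ n, (taylor_ser (y ∘ ofComplex) τ).coeff n ≠ 0) hk
    simpa using this
  refine ⟨n₀, ?_, ?_⟩
  · rw [taylor_TPt_eq]
    exact (taylor_order_ofPowerSeries _ n₀ h0 h1).1
  · rw [analyticOrderAt_eq_nat_iff_iteratedDeriv_eq_zero (taylor_analyticAt hy τ)]
    constructor
    · intro k hk
      have := h0 k hk
      rw [taylor_ser_coeff] at this
      have h2 : (k.factorial : ℂ) ≠ 0 := by exact_mod_cast k.factorial_ne_zero
      rcases mul_eq_zero.mp this with h3 | h3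
      · exact absurd (inv_eq_zero.mp h3) h2
      · exact h3
    · intro h
      apply h1
      rw [taylor_ser_coeff, h, mul_zero]

/-- two roots on a preconnected open set which agree (and do not vanish) at one point agree. -/
theorem unique {m : ℕ} (hm : 0 < m) {U : Set ℂ} (hU : IsOpen U) (hc : IsPreconnected U)
    {H₁ H₂ : ℂ → ℂ} (h₁ : DifferentiableOn ℂ H₁ U) (h₂ : DifferentiableOn ℂ H₂ U)
    (hpow : ∀ z ∈ U, H₁ z ^ m = H₂ z ^ m) {z₀ : ℂ} (hz₀ : z₀ ∈ U) (heq : H₁ z₀ = H₂ z₀)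
    (hne : H₂ z₀ ≠ 0) : ∀ z ∈ U, H₁ z = H₂ z := by
  have a₁ : AnalyticOnNhd ℂ H₁ U := h₁.analyticOnNhd hU
  have a₂ : AnalyticOnNhd ℂ H₂ U := h₂.analyticOnNhd hU
  have c₁ : ContinuousAt H₁ z₀ := (a₁ z₀ hz₀).continuousAt
  have c₂ : ContinuousAt H₂ z₀ := (a₂ z₀ hz₀).continuousAt
  have cS : ContinuousAt (fun z => ∑ i ∈ Finset.range m, H₁ z ^ i * H₂ z ^ (m - 1 - i)) z₀ := by
    apply tendsto_finsetSum
    intro i _
    exact (c₁.pow i).mul (c₂.pow _)
  have hS : (∑ i ∈ Finset.range m, H₁ z₀ ^ i * H₂ z₀ ^ (m - 1 - i)) ≠ 0 := by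
    have : ∀ i ∈ Finset.range m, H₁ z₀ ^ i * H₂ z₀ ^ (m - 1 - i) = H₂ z₀ ^ (m - 1) := by
      intro i hi
      rw [heq, ← pow_add]
      congr 1
      have := Finset.mem_range.mp hi
      omega
    rw [Finset.sum_congr rfl this, Finset.sum_const, Finset.card_range, nsmul_eq_mul]
    exact mul_ne_zero (by exact_mod_cast hm.ne') (pow_ne_zero _ hne)
  have hev : H₁ =ᶠ[nhds z₀] H₂ := by
    filter_upwards [cS.eventually_ne hS, hU.mem_nhds hz₀] with z hz hzU
    have := geom_sum₂_mul (H₁ z) (H₂ z) m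
    rw [hpow z hzU, sub_self] at this
    rcases mul_eq_zero.mp this with h | h
    · exact absurd h hz
    · exact sub_eq_zero.mp h
  exact a₁.eqOn_of_preconnected_of_eventuallyEq a₂ hc hz₀ hev

/-- the closed disc with centre `t i` and radius `t - 1/t` lies in the upper half plane. -/
theorem closedBall_sub {t : ℝ} (ht : 1 < t) :
    closedBall ((t : ℂ) * Complex.I) (t - 1 / t) ⊆ {z : ℂ | 0 < z.im} := by
  intro z hz
  rw [mem_closedBall, dist_eq_norm] at hz
  have h1 := Complex.abs_im_le_norm (z - (t : ℂ) * Complex.I)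
  have h2 : (z - (t : ℂ) * Complex.I).im = z.im - t := by simp
  rw [h2] at h1
  have h3 := (abs_le.mp (h1.trans hz)).1
  have h4 : 0 < 1 / t := by positivity
  show 0 < z.im
  linarith

theorem mem_ball {t : ℝ} (ht : 1 < t) (z : ℂ) (h : z.re ^ 2 + z.im ^ 2 + 2 < 2 * z.im * t) :
    z ∈ ball ((t : ℂ) * Complex.I) (t - 1 / t) := by
  rw [Metric.mem_ball, dist_eq_norm]
  have ht0 : 0 < t := by linarith
  have hr : 0 ≤ t - 1 / t := by
    have : 1 / t ≤ 1 := by
      rw [div_le_one ht0]; exact ht.le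
    linarith
  rw [← sq_lt_sq₀ (norm_nonneg _) hr, Complex.sq_norm, Complex.normSq_apply]
  have h1 : (z - (t : ℂ) * Complex.I).im = z.im - t := by simp
  have h2 : (z - (t : ℂ) * Complex.I).re = z.re := by simp
  rw [h1, h2]
  have h3 : (t - 1 / t) ^ 2 = t ^ 2 - 2 + (1 / t) ^ 2 := by
    field_simp
    ring
  rw [h3]
  have h4 : 0 ≤ (1 / t) ^ 2 := by positivity
  nlinarith

theorem exists_t (z z₀ : ℍ) : ∃ t : ℝ, 1 < t ∧
    (z : ℂ) ∈ ball ((t : ℂ) * Complex.I) (t - 1 / t) ∧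
    (z₀ : ℂ) ∈ ball ((t : ℂ) * Complex.I) (t - 1 / t) := by
  have key : ∀ w : ℍ, ∃ T : ℝ, ∀ t, T < t →
      (w : ℂ).re ^ 2 + (w : ℂ).im ^ 2 + 2 < 2 * (w : ℂ).im * t := by
    intro w
    have hw : 0 < (w : ℂ).im := w.im_pos
    refine ⟨((w : ℂ).re ^ 2 + (w : ℂ).im ^ 2 + 2) / (2 * (w : ℂ).im), fun t ht => ?_⟩
    rw [div_lt_iff₀ (by positivity)] at ht
    linarith
  obtain ⟨T₁, h₁⟩ := key z
  obtain ⟨T₂, h₂⟩ := key z₀
  refine ⟨max 1 (max T₁ T₂) + 1, ?_, ?_, ?_⟩
  · have := le_max_left 1 (max T₁ T₂)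
    linarith
  · apply mem_ball
    · have := le_max_left 1 (max T₁ T₂)
      linarith
    · apply h₁
      have := le_max_right 1 (max T₁ T₂)
      have := le_max_left T₁ T₂
      linarith
  · apply mem_ball
    · have := le_max_left 1 (max T₁ T₂)
      linarith
    · apply h₂
      have := le_max_right 1 (max T₁ T₂)
      have := le_max_right T₁ T₂
      linarith

end Root

open Root Metric in
theorem exists_root {m : ℕ} (hm : 0 < m) {y : ℍ → ℂ} (hy : MDiff y) (hne : y ≠ 0)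
    (hord : ∀ τ : ℍ, (m : ℤ) ∣ (TPt τ ⟨y, hy⟩).order) :
    ∃ h : ℍ → ℂ, MDiff h ∧ ∀ z, h z ^ m = y z := by
  classical
  obtain ⟨z₀, hz₀⟩ : ∃ z₀, y z₀ ≠ 0 := by
    by_contra hcon
    push Not at hcon
    exact hne (funext hcon)
  set Y : ℂ → ℂ := y ∘ ofComplex with hY
  have hYz : ∀ z : ℍ, Y z = y z := fun z => by simp [hY]
  obtain ⟨c₀, hc₀⟩ : ∃ c₀ : ℂ, c₀ ^ m = y z₀ := IsAlgClosed.exists_pow_nat_eq _ hm
  have hc₀ne : c₀ ≠ 0 := by
    rintro rfl
    rw [zero_pow hm.ne'] at hc₀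
    exact hz₀ hc₀.symm
  -- normalised roots on the discs
  have hroot : ∀ t : ℝ, 1 < t → (z₀ : ℂ) ∈ ball ((t : ℂ) * Complex.I) (t - 1 / t) →
      ∃ H : ℂ → ℂ, DifferentiableOn ℂ H (ball ((t : ℂ) * Complex.I) (t - 1 / t)) ∧
        (∀ z ∈ ball ((t : ℂ) * Complex.I) (t - 1 / t), H z ^ m = Y z) ∧ H z₀ = c₀ := by
    intro t ht hz₀t
    have hr : 0 < t - 1 / t := by
      have := dist_nonneg.trans_lt (Metric.mem_ball.mp hz₀t)
      exact this
    obtain ⟨H, hH, hHp⟩ := exists_root_on_ball m hm ((t : ℂ) * Complex.I) (t - 1 / t) hr Y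
      ((taylor_analyticOnNhd hy).mono (closedBall_sub ht))
      ⟨z₀, ball_subset_closedBall hz₀t, by rw [hYz]; exact hz₀⟩
      (by
        intro z hz
        have hzim : 0 < z.im := closedBall_sub ht hz
        obtain ⟨n, hn1, hn2⟩ := order_bridge hy hne ⟨z, hzim⟩
        have hd := hord ⟨z, hzim⟩
        rw [hn1] at hd
        obtain ⟨k, hk⟩ := Int.natCast_dvd_natCast.mp hd
        exact ⟨k, by rw [← hk]; exact hn2⟩)
    have hHz₀ : H z₀ ≠ 0 := by
      intro h
      have := hHp z₀ hz₀t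
      rw [h, zero_pow hm.ne', hYz] at this
      exact hz₀ this.symm
    refine ⟨fun z => c₀ / H z₀ * H z, hH.const_mul _, fun z hz => ?_, ?_⟩
    · rw [mul_pow, div_pow, hHp z hz, hHp z₀ hz₀t, hc₀, hYz, div_self hz₀, one_mul]
    · field_simp
  choose! H hHd hHp hH0 using hroot
  choose T hT1 hTz hTz₀ using fun z : ℍ => exists_t z z₀
  -- compatibility
  have hcompat : ∀ t s : ℝ, 1 < t → 1 < s →
      (z₀ : ℂ) ∈ ball ((t : ℂ) * Complex.I) (t - 1 / t) →
      (z₀ : ℂ) ∈ ball ((s : ℂ) * Complex.I) (s - 1 / s) →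
      ∀ w, w ∈ ball ((t : ℂ) * Complex.I) (t - 1 / t) →
        w ∈ ball ((s : ℂ) * Complex.I) (s - 1 / s) → H t w = H s w := by
    intro t s ht hs h0t h0s w hwt hws
    refine unique hm (U := ball ((t : ℂ) * Complex.I) (t - 1 / t) ∩
      ball ((s : ℂ) * Complex.I) (s - 1 / s)) (isOpen_ball.inter isOpen_ball)
      ((convex_ball _ _).inter (convex_ball _ _)).isPreconnected
      ((hHd t ht h0t).mono Set.inter_subset_left) ((hHd s hs h0s).mono Set.inter_subset_right)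
      (fun z hz => by rw [hHp t ht h0t z hz.1, hHp s hs h0s z hz.2]) (z₀ := z₀) ⟨h0t, h0s⟩
      (by rw [hH0 t ht h0t, hH0 s hs h0s]) (by rw [hH0 s hs h0s]; exact hc₀ne) w ⟨hwt, hws⟩
  refine ⟨fun z => H (T z) z, ?_, fun z => ?_⟩
  · rw [UpperHalfPlane.mdifferentiable_iff]
    intro w hw
    have hw' : 0 < w.im := hw
    set τ : ℍ := ⟨w, hw'⟩ with hτ
    have hwB : w ∈ ball ((T τ : ℂ) * Complex.I) (T τ - 1 / T τ) := hTz τ
    have hd : DifferentiableAt ℂ (H (T τ)) w :=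
      (hHd (T τ) (hT1 τ) (hTz₀ τ)).differentiableAt (isOpen_ball.mem_nhds hwB)
    have hev : ((fun z : ℍ => H (T z) z) ∘ ofComplex) =ᶠ[nhds w] H (T τ) := by
      filter_upwards [isOpen_ball.mem_nhds hwB, isOpen_upperHalfPlaneSet.mem_nhds hw] with v hv hvim
      have hvim' : 0 < v.im := hvim
      have hof : ofComplex v = ⟨v, hvim'⟩ := ofComplex_apply_of_im_pos hvim'
      simp only [Function.comp_apply, hof]
      exact hcompat _ _ (hT1 _) (hT1 τ) (hTz₀ _) (hTz₀ τ) v (hTz ⟨v, hvim'⟩) hv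
    exact (hev.differentiableAt_iff.mpr hd).differentiableWithinAt
  · rw [hHp (T z) (hT1 z) (hTz₀ z) z (hTz z), hYz]

end Fermat.Agent.T24.NV
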