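import Fermat.Agent.S48.TNV.Orbit
import Fermat.Agent.S48.TNV.Kb.Basic
import Fermat.Agent.S48.TNV.Kc.Basic

set_option autoImplicit false

/-!
# NV task BR-Bridge

The base change `ℚ̄ → ℂ` of the function field, and the transfer of `HasChar`.

SKETCH.  `coeffMap iotaKC` maps `Jser d` (over `Kb`) to `C24.Jser d` (both are `jqNModC _ d`, i.e. images of a series with rational/integer coefficients; see `phi_coeffMap_jqModC`, `phi_Jser_of_ne` in `S24/Phi.lean`)
and constants to constants, so `A0 N` to `TC24.A0 N` (`Algebra.adjoin_induction`) and the fraction field `FN N` (`exists_div_A0`, `A0_le`) to `TC24.FN N`.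
`PhiB_iotaA`: both `a ↦ TC24.PhiB N (iotaA a)` and `PhiB N` are ring homs `A0 N → (ℍ → ℂ)` which agree on constants (`PhiB_const`, `iotaC_iotaKC`) and on the `Jser d` (`PhiB_Jser`): `phi_ringHom_ext`.
`toC`: map the data `(a, w, h) ↦ (iotaA a, iotaF w, h)`.
`ofC`: write `f = u₀ / w₀` over `Kb`, `a₀ = u₀ * w₀ ^ (m-1)`, `thetaIncl a₀ = f * (thetaIncl w₀) ^ m`; apply `TC24.Ch.HasChar.exists_root` to `a' = iotaA a₀`, `w' = iotaF (thetaIncl w₀)`.
-/

open UpperHalfPlane ModularForm CongruenceSubgroup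
open scoped MatrixGroups Manifold

namespace Fermat.Agent.T24.NV

open Fermat.Agent.S24

namespace Bridge

theorem coeffMap_Jser (d : ℕ) : ModularCurve.coeffMap iotaKC (Jser d) = C24.Jser d := by
  by_cases hd : d = 0
  · subst hd
    simp [Jser, C24.Jser]
  · have : NeZero d := ⟨hd⟩
    rw [phi_Jser_of_ne, TC24.phi_Jser_of_ne, ModularCurve.jqNModC, ModularCurve.jqNModC,
      ModularCurve.coeffMap_qExpand, phi_coeffMap_jqModC]

theorem coeffMap_Tser (D e : ℕ) (b : ZMod D) :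
    ModularCurve.coeffMap iotaKC (Tser D e b) = TC24.Tser D e b := by
  by_cases he : e = 0
  · subst he
    simp [Tser, TC24.Tser]
  · rw [Tser, TC24.Tser, dif_neg he, dif_neg he, ModularCurve.coeffEmb, ModularCurve.coeffEmb,
      ModularCurve.coeffMap_coeffMap]
    congr 2
    exact Subsingleton.elim _ _

theorem coeffMap_const (a : Kb) :
    ModularCurve.coeffMap iotaKC (algebraMap Kb (LaurentSeries Kb) a) =
      algebraMap C24.Kc (LaurentSeries C24.Kc) (iotaKC a) := by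
  rw [ModularCurve.algebraMap_laurentSeries_eq_single, ModularCurve.algebraMap_laurentSeries_eq_single,
    ModularCurve.coeffMap_single]

end Bridge

theorem coeffMap_iotaKC_mem_A0 (N : ℕ) [Cond N] (a : LaurentSeries Kb) (ha : a ∈ A0 N) :
    ModularCurve.coeffMap iotaKC a ∈ TC24.A0 N := by
  have ha' : a ∈ Algebra.adjoin Kb (fGens N) := ha
  induction ha' using Algebra.adjoin_induction with
  | mem x hx =>
    rcases hx with ⟨d, hd, rfl⟩ | ⟨e, b, he, rfl⟩
    · rw [Bridge.coeffMap_Jser]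
      exact TC24.Jser_mem_A0 hd
    · rw [Bridge.coeffMap_Tser]
      exact TC24.Tser_mem_A0 he b
  | algebraMap r =>
    rw [Bridge.coeffMap_const]
    exact (TC24.A0 N).algebraMap_mem _
  | add x y _ _ hx hy => rw [map_add]; exact add_mem (hx (by assumption)) (hy (by assumption))
  | mul x y _ _ hx hy => rw [map_mul]; exact mul_mem (hx (by assumption)) (hy (by assumption))

theorem coeffMap_iotaKC_mem (N : ℕ) [NeZero N] [Cond N] (f : LaurentSeries Kb)
    (hf : f ∈ T24.modularFunctionFieldBar N) :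
    ModularCurve.coeffMap iotaKC f ∈ TC24.mffC N := by
  obtain ⟨u, hu, w, hw, -, rfl⟩ := exists_div_A0 N f hf
  rw [map_div₀]
  exact div_mem (TC24.A0_le N _ (coeffMap_iotaKC_mem_A0 N u hu))
    (TC24.A0_le N _ (coeffMap_iotaKC_mem_A0 N w hw))

/-- base change of the function field. -/
noncomputable def iotaF (N : ℕ) [NeZero N] [Cond N] : FN N →+* TC24.FN N :=
  ((ModularCurve.coeffMap iotaKC).comp (T24.modularFunctionFieldBar N).toSubring.subtype).codRestrict
    (TC24.mffC N).toSubring fun f => coeffMap_iotaKC_mem N f.1 f.2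

theorem coe_iotaF (N : ℕ) [NeZero N] [Cond N] (f : FN N) :
    ((iotaF N f : TC24.FN N) : LaurentSeries C24.Kc) = ModularCurve.coeffMap iotaKC f.1 := rfl

/-- base change of the coordinate ring. -/
noncomputable def iotaA (N : ℕ) [Cond N] : A0 N →+* TC24.A0 N :=
  ((ModularCurve.coeffMap iotaKC).comp (A0 N).toSubring.subtype).codRestrict
    (TC24.A0 N).toSubring fun a => coeffMap_iotaKC_mem_A0 N a.1 a.2

theorem coe_iotaA (N : ℕ) [Cond N] (a : A0 N) :
    ((iotaA N a : TC24.A0 N) : LaurentSeries C24.Kc) = ModularCurve.coeffMap iotaKC a.1 := rfl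

theorem thetaIncl_iotaA (N : ℕ) [NeZero N] [Cond N] (a : A0 N) :
    TC24.thetaIncl N (iotaA N a) = iotaF N (thetaIncl N a) := by
  apply Subtype.ext
  rw [coe_iotaF]
  rfl

theorem PhiB_iotaA (N : ℕ) [NeZero N] [Cond N] (a : A0 N) :
    (TC24.PhiB N (iotaA N a) : ℍ → ℂ) = (PhiB N a : ℍ → ℂ) := by
  have h : ((TC24.Btil N).subtype.comp ((TC24.PhiB N).comp (iotaA N))) =
      ((Btil N).subtype.comp (PhiB N)) := by
    apply phi_ringHom_ext
    · intro c
      have e1 : iotaA N (algebraMap Kb (A0 N) c) = algebraMap C24.Kc (TC24.A0 N) (iotaKC c) := by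
        apply Subtype.ext
        rw [coe_iotaA]
        exact Bridge.coeffMap_const c
      show (TC24.PhiB N (iotaA N (algebraMap Kb (A0 N) c)) : ℍ → ℂ) =
        (PhiB N (algebraMap Kb (A0 N) c) : ℍ → ℂ)
      rw [e1, TC24.PhiB_const, PhiB_const]
      funext z
      rw [C24.constK_apply, constK_apply, iotaC_iotaKC]
    · intro d hd
      have e1 : iotaA N ⟨Jser d, Jser_mem_A0 hd⟩ = ⟨C24.Jser d, TC24.Jser_mem_A0 hd⟩ := by
        apply Subtype.ext
        rw [coe_iotaA]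
        exact Bridge.coeffMap_Jser d
      show (TC24.PhiB N (iotaA N ⟨Jser d, Jser_mem_A0 hd⟩) : ℍ → ℂ) =
        (PhiB N ⟨Jser d, Jser_mem_A0 hd⟩ : ℍ → ℂ)
      rw [e1, TC24.PhiB_Jser N hd, PhiB_Jser N hd]
    · intro e b he
      have e1 : iotaA N ⟨Tser (Cond.D N) e b, Tser_mem_A0 he b⟩ =
          ⟨TC24.Tser (Cond.D N) e b, TC24.Tser_mem_A0 he b⟩ := by
        apply Subtype.ext
        rw [coe_iotaA]
        exact Bridge.coeffMap_Tser _ e b
      show (TC24.PhiB N (iotaA N ⟨Tser (Cond.D N) e b, Tser_mem_A0 he b⟩) : ℍ → ℂ) =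
        (PhiB N ⟨Tser (Cond.D N) e b, Tser_mem_A0 he b⟩ : ℍ → ℂ)
      rw [e1, TC24.PhiB_Tser N he, PhiB_Tser N he]
  exact congrArg (fun φ : A0 N →+* (ℍ → ℂ) => φ a) h

namespace Bridge

theorem iotaF_injective (N : ℕ) [NeZero N] [Cond N] : Function.Injective (iotaF N) := (iotaF N).injective

theorem iotaA_ne_zero (N : ℕ) [NeZero N] [Cond N] {a : A0 N} (ha : a ≠ 0) : iotaA N a ≠ 0 := by
  intro h0
  have h1 : iotaF N (thetaIncl N a) = 0 := by
    rw [← thetaIncl_iotaA, h0, map_zero]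
  have h2 : thetaIncl N a = 0 := by
    rwa [map_eq_zero] at h1
  exact ha (thetaIncl_injective N (h2.trans (map_zero _).symm))

end Bridge

theorem hasChar_toC {N : ℕ} [NeZero N] [Cond N] {m : ℕ} {f : FN N} {χ : Chr N}
    (h : Ch.HasChar N m f χ) : TC24.Ch.HasChar N m (iotaF N f) χ := by
  obtain ⟨a, w, h₁, ha, hw, e, hr, he⟩ := h
  refine ⟨iotaA N a, iotaF N w, h₁, Bridge.iotaA_ne_zero N ha, ?_, ?_, ⟨hr.1, fun z => ?_⟩, he⟩
  · rw [Ne, map_eq_zero]
    exact hw
  · rw [thetaIncl_iotaA, e, map_mul, map_pow]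
  · rw [PhiB_iotaA]
    exact hr.2 z

theorem hasChar_ofC {N : ℕ} [NeZero N] [Cond N] {m : ℕ} (hm : 0 < m) {f : FN N} {χ : Chr N}
    (h : TC24.Ch.HasChar N m (iotaF N f) χ) : Ch.HasChar N m f χ := by
  have hf0 : f ≠ 0 := by
    intro h0
    apply h.ne_zero
    rw [h0, map_zero]
  obtain ⟨u₀, w₀, hw₀, hf⟩ := thetaIncl_exists_div N f
  have hθw : thetaIncl N w₀ ≠ 0 := fun h0 =>
    hw₀ (thetaIncl_injective N (h0.trans (map_zero _).symm))
  have hu₀ : u₀ ≠ 0 := by
    rintro rfl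
    rw [map_zero, zero_div] at hf
    exact hf0 hf
  have e₀ : thetaIncl N (u₀ * w₀ ^ (m - 1)) = f * thetaIncl N w₀ ^ m := by
    obtain ⟨k, rfl⟩ : ∃ k, m = k + 1 := ⟨m - 1, by omega⟩
    rw [map_mul, map_pow, hf, Nat.add_sub_cancel, pow_succ]
    field_simp
  obtain ⟨h', hr', he'⟩ := h.exists_root hm (iotaA N (u₀ * w₀ ^ (m - 1))) (iotaF N (thetaIncl N w₀))
    (by rw [Ne, map_eq_zero]; exact hθw)
    (by rw [thetaIncl_iotaA, e₀, map_mul, map_pow])
  refine ⟨u₀ * w₀ ^ (m - 1), thetaIncl N w₀, h', mul_ne_zero hu₀ (pow_ne_zero _ hw₀), hθw, e₀,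
    ⟨hr'.1, fun z => ?_⟩, he'⟩
  rw [← PhiB_iotaA]
  exact hr'.2 z

end Fermat.Agent.T24.NV
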