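import Fermat.Agent.S48.TC24.Cards

set_option autoImplicit false

/-!
# NV task C1-Orbit

A complex number which is not algebraic has an infinite orbit under `Aut (ℂ / ℚ̄)`.

SKETCH.  `x ∉ range iotaKC` means that `x` is transcendental over `ℚ` (`twist_mem_range_iotaK_of_isAlgebraic` in `S24/Twist.lean`).
Extend `{x}` to a transcendence basis `B` of `Kc` over `ℚ` (`exists_isTranscendenceBasis_superset`-type lemma).  For `n : ℕ` the family obtained from `B`
by replacing `x` by `x + n` is again a transcendence basis, and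
`IsAlgClosed.equivOfTranscendenceBasis` (Mathlib.FieldTheory.IsAlgClosed.Classification) gives a ring automorphism `σ n` of `Kc` with `σ n x = x + n`.
Alternative: `ℚ(x) ≃ ℚ(x)`, `x ↦ x + n`, then extend to the algebraically closed field via transcendence bases, or
`B` is infinite and one can use the permutations of `B`.
Every ring automorphism of `Kc` is a `ℚ`-algebra automorphism; but it need not fix `ℚ̄` pointwise:
so work over the base field `K₀ = range iotaKC` (an algebraically closed subfield; `x` is transcendental over it since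
it is algebraic over `ℚ`) instead of `ℚ`, i.e. use transcendence bases of `Kc` over `Kb` for the algebra structure `iotaKC.toAlgebra`.
-/

namespace Fermat.Agent.T24.NV

open Fermat.Agent.S24 Fermat.Agent.C24

/-- the embedding `ℚ̄ → Kc = ℂ`. -/
noncomputable def iotaKC : Kb →+* Kc := iotaCinv.comp iotaK

theorem iotaC_iotaKC (a : Kb) : iotaC (iotaKC a) = iotaK a := rfl

namespace Orbit

open MvPolynomial

/-- the shift `X i₀ ↦ X i₀ + c` of a polynomial ring. -/
noncomputable def shiftHom {ι R : Type*} [CommRing R] [DecidableEq ι] (i₀ : ι) (c : R) :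
    MvPolynomial ι R →ₐ[R] MvPolynomial ι R :=
  aeval fun i => X i + C (if i = i₀ then c else 0)

theorem shiftHom_X {ι R : Type*} [CommRing R] [DecidableEq ι] (i₀ : ι) (c : R) (i : ι) :
    shiftHom i₀ c (X i) = X i + C (if i = i₀ then c else 0) := by
  rw [shiftHom, aeval_X]

theorem shiftHom_comp {ι R : Type*} [CommRing R] [DecidableEq ι] (i₀ : ι) (c d : R)
    (h : c + d = 0) : (shiftHom i₀ c).comp (shiftHom i₀ d) = AlgHom.id R (MvPolynomial ι R) := by
  apply MvPolynomial.algHom_ext
  intro i
  rw [AlgHom.comp_apply, shiftHom_X, map_add, shiftHom_X, AlgHom.id_apply]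
  have h1 : shiftHom i₀ c (C (if i = i₀ then d else 0)) = C (if i = i₀ then d else 0) :=
    (shiftHom i₀ c).commutes _
  rw [h1, add_assoc, ← C_add]
  split_ifs
  · rw [h, C_0, add_zero]
  · rw [add_zero, C_0, add_zero]

/-- the shift as an automorphism. -/
noncomputable def shiftEquiv {ι R : Type*} [CommRing R] [DecidableEq ι] (i₀ : ι) (c : R) :
    MvPolynomial ι R ≃ₐ[R] MvPolynomial ι R :=
  AlgEquiv.ofAlgHom (shiftHom i₀ c) (shiftHom i₀ (-c)) (shiftHom_comp i₀ c (-c) (add_neg_cancel c))
    (shiftHom_comp i₀ (-c) c (neg_add_cancel c))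

theorem shiftEquiv_X {ι R : Type*} [CommRing R] [DecidableEq ι] (i₀ : ι) (c : R) :
    shiftEquiv i₀ c (X i₀) = X i₀ + C c := by
  show shiftHom i₀ c (X i₀) = _
  rw [shiftHom_X, if_pos rfl]

/-- general form: a transcendental element of an algebraically closed extension can be shifted. -/
theorem exists_shift {R K : Type*} [Field R] [Field K] [Algebra R K] [IsAlgClosed K] (x : K)
    (hx : Transcendental R x) (c : R) :
    ∃ σ : K ≃+* K, (∀ a : R, σ (algebraMap R K a) = algebraMap R K a) ∧
      σ x = x + algebraMap R K c := by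
  classical
  have hs : AlgebraicIndepOn R id ({x} : Set K) := by
    show AlgebraicIndependent R (fun i : ({x} : Set K) => id (i : K))
    rw [algebraicIndependent_unique_type_iff]
    exact hx
  obtain ⟨t, hxt, ht⟩ := exists_isTranscendenceBasis_superset hs
  let i₀ : t := ⟨x, hxt rfl⟩
  letI := IsAlgClosed.isAlgClosure_of_transcendence_basis _ ht
  let e : Algebra.adjoin R (Set.range ((↑) : t → K)) ≃ₐ[R]
      Algebra.adjoin R (Set.range ((↑) : t → K)) :=
    (ht.1.aevalEquiv.symm.trans (shiftEquiv i₀ c)).trans ht.1.aevalEquiv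
  refine ⟨IsAlgClosure.equivOfEquiv K K e.toRingEquiv, ?_, ?_⟩
  · intro a
    have h1 : algebraMap R K a = algebraMap (Algebra.adjoin R (Set.range ((↑) : t → K))) K
        (algebraMap R _ a) := rfl
    rw [h1, IsAlgClosure.equivOfEquiv_algebraMap]
    congr 1
    exact e.commutes a
  · have h1 : x = algebraMap (Algebra.adjoin R (Set.range ((↑) : t → K))) K
        (ht.1.aevalEquiv (X i₀)) := by
      rw [AlgebraicIndependent.algebraMap_aevalEquiv, aeval_X]
    conv_lhs => rw [h1]
    rw [IsAlgClosure.equivOfEquiv_algebraMap]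
    have h2 : e.toRingEquiv (ht.1.aevalEquiv (X i₀)) = ht.1.aevalEquiv (X i₀ + C c) := by
      show ht.1.aevalEquiv (shiftEquiv i₀ c (ht.1.aevalEquiv.symm (ht.1.aevalEquiv (X i₀)))) = _
      rw [AlgEquiv.symm_apply_apply, shiftEquiv_X]
    rw [h2, AlgebraicIndependent.algebraMap_aevalEquiv, map_add, aeval_X, aeval_C]

end Orbit

theorem exists_infinite_orbit (x : Kc) (hx : x ∉ iotaKC.range) :
    ∃ σ : ℕ → (Kc ≃ₐ[ℚ] Kc), (∀ n a, σ n (iotaKC a) = iotaKC a) ∧
      Function.Injective fun n => σ n x := by
  letI : Algebra Kb Kc := iotaKC.toAlgebra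
  have htr : Transcendental Kb x := by
    intro halg
    apply hx
    have hint : IsIntegral Kb x := halg.isIntegral
    have hdeg := IsAlgClosed.degree_eq_one_of_irreducible Kb (minpoly.irreducible hint)
    exact minpoly.mem_range_of_degree_eq_one Kb x hdeg
  choose τ hτ1 hτ2 using fun n : ℕ => Orbit.exists_shift (R := Kb) x htr (n : Kb)
  refine ⟨fun n => AlgEquiv.ofRingEquiv (f := τ n) (fun r => by
    rw [eq_ratCast]; exact map_ratCast (τ n) r), ?_, ?_⟩
  · intro n a
    exact hτ1 n a
  · intro n m hnm
    have h1 : τ n x = τ m x := hnm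
    rw [hτ2, hτ2, map_natCast, map_natCast] at h1
    exact_mod_cast add_left_cancel h1

end Fermat.Agent.T24.NV
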