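import Fermat.Agent.S48.T24.Cards
import Fermat.Agent.S16.HeckeCoset

set_option autoImplicit false

/-!
# Chapter NV (analytic uniformisation of the Kummer classes): field independent definitions

`F = FN N` is the function field of `X₀(N)` (over `ℚ̄` in `Fermat.Agent.S24`, over `ℂ` in
`Fermat.Agent.C24`).  A function `f ∈ Fˣ` all of whose orders are divisible by `m` is, up to an
`m`-th power, `h ^ m` for a holomorphic `h : ℍ → ℂ`, and `h (γ z) = χ γ * h z` for a character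
`χ : Γ₀(N) → μ_m`.  The chapter proves that `[f] ↦ χ` is a Hecke equivariant bijection between
`{f | m ∣ div f} / m`-th powers and the characters which are trivial on elliptic and parabolic
elements, i.e. `Hom_par (Γ₀(N), ℤ) / m`.
-/

open UpperHalfPlane ModularForm CongruenceSubgroup
open scoped MatrixGroups Manifold

namespace Fermat.Agent.T24.NV

open Fermat.Agent.S24 Fermat.Agent.S16

theorem Gamma_le_Gam (N : ℕ) [Cond N] : Gamma N ≤ Gam N := by
  intro g hg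
  rw [Gamma_mem] at hg
  refine ⟨by rw [Gamma0_mem]; exact hg.2.2.1, Or.inl ?_⟩
  have h2 : ((g 1 1 : ℤ) : ZMod N) = ((1 : ℤ) : ZMod N) := by simpa using hg.2.2.2
  rw [ZMod.intCast_eq_intCast_iff_dvd_sub] at h2
  have h3 : ((g 1 1 : ℤ) : ZMod (Cond.D N)) = ((1 : ℤ) : ZMod (Cond.D N)) := by
    rw [ZMod.intCast_eq_intCast_iff_dvd_sub]
    exact (Int.natCast_dvd_natCast.mpr (Cond.dvd (N := N))).trans h2
  simpa using h3

theorem neg_one_mem_Gam (N : ℕ) [Cond N] : (-1 : SL(2, ℤ)) ∈ Gam N := by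
  refine ⟨by rw [Gamma0_mem]; simp, Or.inr ?_⟩
  simp

theorem T_zpow_mem_Gamma (N : ℕ) (k : ℤ) : (ModularGroup.T ^ ((N : ℤ) * k) : SL(2, ℤ)) ∈ Gamma N := by
  rw [Gamma_mem, ModularGroup.coe_T_zpow]
  simp

theorem conj_mem_Gam (N : ℕ) [Cond N] (g : SL(2, ℤ)) {t : SL(2, ℤ)} (ht : t ∈ Gamma N) :
    g⁻¹ * t * g ∈ Gam N := by
  apply Gamma_le_Gam
  have := (Gamma_normal N).conj_mem t ht g⁻¹
  rwa [inv_inv] at this

/-- characters of `Γ₀(N)`. -/
abbrev Chr (N : ℕ) [Cond N] : Type := Gam N →* ℂˣ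

/-- `h (γ z) = χ γ * h z`. -/
def IsEqv (N : ℕ) [Cond N] (χ : Chr N) (h : ℍ → ℂ) : Prop :=
  ∀ (γ : Gam N) (z : ℍ), h ((γ : SL(2, ℤ)) • z) = ((χ γ : ℂˣ) : ℂ) * h z

/-- trivial on the elements of trace `0, ±1, ±2` (elliptic, parabolic, `±1`). -/
def SmallTriv (N : ℕ) [Cond N] (χ : Chr N) : Prop :=
  ∀ γ : Gam N, SmallTrace (γ : SL(2, ℤ)) → χ γ = 1

/-- holomorphic functions on `ℍ` all of whose `SL(2,ℤ)`-translates are `N`-periodic and meromorphic
at `i∞`. -/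
noncomputable def Wh (N : ℕ) [Cond N] : Subring (ℍ → ℂ) := ⨅ g : SL(2, ℤ), (perSub N).comap (act g)

theorem mem_Wh {N : ℕ} [Cond N] {b : ℍ → ℂ} : b ∈ Wh N ↔ ∀ g : SL(2, ℤ), act g b ∈ perSub N := by
  simp [Wh, Subring.mem_iInf]

theorem rootU_add (δ : ℕ) (b b' : ℤ) : rootU δ (b + b') = rootU δ b * rootU δ b' := by
  apply Units.ext
  show Complex.exp _ = Complex.exp _ * Complex.exp _
  rw [← Complex.exp_add]
  congr 1
  push_cast
  ring

theorem rootU_zero (δ : ℕ) : rootU δ 0 = 1 := by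
  apply Units.ext
  simp [rootU]

/-- the character `γ ↦ exp (2 π i ψ γ / m)`. -/
noncomputable def expChr (N m : ℕ) [Cond N] (ψ : Additive (Gam N) →+ ℤ) : Chr N where
  toFun γ := rootU m (ψ (Additive.ofMul γ))
  map_one' := by rw [ofMul_one, map_zero, rootU_zero]
  map_mul' γ δ := by rw [ofMul_mul, map_add, rootU_add]

theorem expChr_apply (N m : ℕ) [Cond N] (ψ : Additive (Gam N) →+ ℤ) (γ : Gam N) :
    expChr N m ψ γ = rootU m (ψ (Additive.ofMul γ)) := rfl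

/-- `z ↦ ∏_x y (β_x z)`, the product over the Hecke representatives at `ℓ`. -/
noncomputable def heckeProd (N ℓ : ℕ) [Cond N] (y : ℍ → ℂ) (z : ℍ) : ℂ :=
  ∏ x : HIdx N ℓ, y (hRep ℓ x.1 • z)

end Fermat.Agent.T24.NV
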