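import Fermat.Agent.S48.TNV.Defs
import Fermat.Agent.S16.Lift

set_option autoImplicit false

/-!
# NV task FIN-FinChar

There are finitely many characters of `Γ₀(N)` of exponent `m`.

SKETCH.  `Γ₀(N)` has finite index in the finitely generated group `SL(2,ℤ)` (`Fermat.Agent.S16.lift_fg_SL2Z`,
`Subgroup.fg_of_index_ne_zero`; finite index: `Fermat.Agent.S24.Cards.finite_Q` or the Mathlib instance), so it is generated by a finite set `S`;
a character of exponent `m` is determined by its restriction to `S` (`MonoidHom.eq_of_eqOn_dense`-type lemma), with values in the finite set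
`rootsOfUnity m ℂ`.
-/

open UpperHalfPlane ModularForm CongruenceSubgroup
open scoped MatrixGroups Manifold

namespace Fermat.Agent.T24.NV

theorem finite_chr (N : ℕ) [NeZero N] [Cond N] (m : ℕ) (hm : 0 < m) :
    Finite {χ : Chr N // χ ^ m = 1} := by
  haveI : NeZero m := ⟨hm.ne'⟩
  haveI : Finite (SL(2, ℤ) ⧸ Gam N) := Fermat.Agent.T24.Cards.finite_Q N
  haveI : (Gam N).FiniteIndex := Subgroup.finiteIndex_of_finite_quotient
  haveI : Group.FG (Gam N) := Subgroup.fg_of_index_ne_zero (Gam N)
  obtain ⟨S, hS⟩ := Group.fg_def.1 (inferInstance : Group.FG (Gam N))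
  let Φ : {χ : Chr N // χ ^ m = 1} → (↥S → rootsOfUnity m ℂ) :=
    fun χ s => ⟨χ.1 s.1, by
      rw [mem_rootsOfUnity]
      have := congrArg (fun f : Chr N => f s.1) χ.2
      simpa using this⟩
  apply Finite.of_injective Φ
  intro χ χ' h
  apply Subtype.ext
  apply MonoidHom.eq_of_eqOn_dense hS
  intro s hs
  have := congrFun h ⟨s, hs⟩
  exact congrArg Subtype.val this

end Fermat.Agent.T24.NV
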