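import Fermat.Agent.S48.TNV.Bridge
import Fermat.Prelude.Def_ModularCurve_X0ModL

set_option autoImplicit false

/-!
# NV task C2-Rational

`F_ℂ ∩ ℚ̄((q)) = F_ℚ̄`.

SKETCH.  `coeffMap iotaKC x = u / w` with `u, w ∈ TC24.A0 N`, `w ≠ 0` (`TC24.exists_div_A0`).  Every element of `TC24.A0 N` is a finite sum `∑ e_s • coeffMap iotaKC (a_s)` with
`e_s : Kc`, `a_s ∈ A0 N` (the set of such sums is a `Kc`-subalgebra containing the generators `C24.Jser d = coeffMap iotaKC (Jser d)`).  Let `(b_s)` be a basis of `Kc` as a vector space over `Kb` (via `iotaKC.toAlgebra`,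
`Module.Basis.ofVectorSpace` / `Module.Free.chooseBasis`); expanding the `e_s` in this basis we may assume that the `e_s` are distinct basis vectors: `w = ∑_s b_s • ι(w_s)`, `u = ∑_s b_s • ι(u_s)` (finite sums, `u_s, w_s ∈ A0 N`).
`w * ι x = u` reads `∑_s b_s • ι (w_s x - u_s) = 0`; taking the `n`-th coefficient and using the linear independence of the `b_s` over `Kb`: `w_s x = u_s` for all `s`.  Some `w_s ≠ 0`; `x = u_s / w_s ∈ F_ℚ̄` (`A0_le`).
-/

open UpperHalfPlane ModularForm CongruenceSubgroup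
open scoped MatrixGroups Manifold

namespace Fermat.Agent.T24.NV

open Fermat.Agent.S24

namespace Rational

open ModularCurve

/-- a `k`-linear form applied coefficientwise commutes with multiplication by series with
coefficients in `k`. -/
theorem map_mul_coeffMap {k K : Type*} [Field k] [Field K] (i : k →+* K) (ℓ : K →+ k)
    (hℓ : ∀ (a : k) (e : K), ℓ (e * i a) = ℓ e * a) (y : LaurentSeries K) (x : LaurentSeries k) :
    (y * coeffMap i x).map ℓ = y.map ℓ * x := by
  ext n
  rw [HahnSeries.map_coeff]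
  have h1 : (coeffMap i x).support ⊆ x.support := by
    intro j hj
    rw [HahnSeries.mem_support] at hj ⊢
    intro h0
    apply hj
    rw [coeffMap_coeff, h0, map_zero]
  have h2 : (y.map ℓ).support ⊆ y.support := by
    intro j hj
    rw [HahnSeries.mem_support] at hj ⊢
    intro h0
    apply hj
    rw [HahnSeries.map_coeff, h0, map_zero]
  rw [HahnSeries.coeff_mul_right' x.isPWO_support h1, HahnSeries.coeff_mul_left' y.isPWO_support h2,
    map_sum]
  apply Finset.sum_congr rfl
  intro ij _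
  rw [coeffMap_coeff, hℓ, HahnSeries.map_coeff]

theorem map_add' {k K : Type*} [Field k] [Field K] (ℓ : K →+ k) (y y' : LaurentSeries K) :
    (y + y').map ℓ = y.map ℓ + y'.map ℓ := by
  ext n
  simp

theorem Jser_eq (d : ℕ) : C24.Jser d = coeffMap iotaKC (Jser d) := by
  unfold C24.Jser Jser
  split_ifs with h
  · rw [map_zero]
  · haveI : NeZero d := ⟨h⟩
    rw [coeffMap_jqNModC]

/-- finite `Kc`-linear combinations of images of elements of `A0 N`. -/
def IsSpan (N : ℕ) [Cond N] (y : LaurentSeries C24.Kc) : Prop :=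
  ∃ (I : Type) (_ : Fintype I) (e : I → C24.Kc) (a : I → LaurentSeries Kb),
    (∀ i, a i ∈ A0 N) ∧ y = ∑ i, HahnSeries.C (e i) * coeffMap iotaKC (a i)

theorem algebraMap_eq (e : C24.Kc) :
    algebraMap C24.Kc (LaurentSeries C24.Kc) e = HahnSeries.C e := by
  rw [algebraMap_laurentSeries_eq_single, HahnSeries.C_apply]

/-- `TC24.A0 N` is spanned over `Kc` by the image of `A0 N`. -/
theorem isSpan_of_mem (N : ℕ) [Cond N] (y : LaurentSeries C24.Kc) (hy : y ∈ TC24.A0 N) : IsSpan N y := by
  unfold TC24.A0 at hy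
  induction hy using Algebra.adjoin_induction with
  | mem y hy =>
    rcases hy with ⟨d, hd, rfl⟩ | ⟨e, b, he, rfl⟩
    · refine ⟨Unit, inferInstance, fun _ => 1, fun _ => Jser d, fun _ => Jser_mem_A0 hd, ?_⟩
      simp [Jser_eq]
    · refine ⟨Unit, inferInstance, fun _ => 1, fun _ => Tser (Cond.D N) e b,
        fun _ => Tser_mem_A0 he b, ?_⟩
      simp [Bridge.coeffMap_Tser]
  | algebraMap r =>
    refine ⟨Unit, inferInstance, fun _ => r, fun _ => 1, fun _ => one_mem _, ?_⟩
    simp [algebraMap_eq]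
  | add y y' _ _ h h' =>
    obtain ⟨I, _, e, a, ha, rfl⟩ := h
    obtain ⟨I', _, e', a', ha', rfl⟩ := h'
    refine ⟨I ⊕ I', inferInstance, Sum.elim e e', Sum.elim a a', ?_, ?_⟩
    · rintro (i | i)
      · exact ha i
      · exact ha' i
    · rw [Fintype.sum_sum_type]
      rfl
  | mul y y' _ _ h h' =>
    obtain ⟨I, _, e, a, ha, rfl⟩ := h
    obtain ⟨I', _, e', a', ha', rfl⟩ := h'
    refine ⟨I × I', inferInstance, fun p => e p.1 * e' p.2, fun p => a p.1 * a' p.2,
      fun p => mul_mem (ha p.1) (ha' p.2), ?_⟩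
    rw [Finset.sum_mul_sum, Fintype.sum_prod_type]
    apply Finset.sum_congr rfl
    intro i _
    apply Finset.sum_congr rfl
    intro i' _
    rw [map_mul, map_mul]
    ring

theorem map_C {k K : Type*} [Field k] [Field K] (ℓ : K →+ k) (e : K) :
    (HahnSeries.C e : LaurentSeries K).map ℓ = HahnSeries.C (ℓ e) := by
  ext n
  rw [HahnSeries.map_coeff, HahnSeries.C_apply, HahnSeries.C_apply, HahnSeries.coeff_single,
    HahnSeries.coeff_single]
  split_ifs
  · rfl
  · exact map_zero ℓ

/-- coefficientwise application of an additive map. -/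
def mapHom {k K : Type*} [Field k] [Field K] (ℓ : K →+ k) : LaurentSeries K →+ LaurentSeries k where
  toFun y := y.map ℓ
  map_zero' := by ext n; simp
  map_add' := map_add' ℓ

/-- a linear form applied coefficientwise maps `TC24.A0 N` to `A0 N`. -/
theorem map_mem_A0 (N : ℕ) [Cond N] (ℓ : C24.Kc →+ Kb)
    (hℓ : ∀ (a : Kb) (e : C24.Kc), ℓ (e * iotaKC a) = ℓ e * a) (y : LaurentSeries C24.Kc)
    (hy : y ∈ TC24.A0 N) : y.map ℓ ∈ A0 N := by
  obtain ⟨I, _, e, a, ha, rfl⟩ := isSpan_of_mem N y hy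
  show mapHom ℓ _ ∈ A0 N
  rw [map_sum]
  refine sum_mem fun i _ => ?_
  show (HahnSeries.C (e i) * coeffMap iotaKC (a i)).map ℓ ∈ A0 N
  rw [map_mul_coeffMap iotaKC ℓ hℓ, map_C]
  have hC : (HahnSeries.C (ℓ (e i)) : LaurentSeries Kb) ∈ A0 N := by
    have := (A0 N).algebraMap_mem (ℓ (e i))
    rwa [algebraMap_laurentSeries_eq_single, ← HahnSeries.C_apply] at this
  exact mul_mem hC (ha i)

end Rational

theorem mem_of_coeffMap_mem (N : ℕ) [NeZero N] [Cond N] (x : LaurentSeries Kb)
    (h : ModularCurve.coeffMap iotaKC x ∈ TC24.mffC N) :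
    x ∈ T24.modularFunctionFieldBar N := by
  obtain ⟨u, hu, w, hw, hw0, hx⟩ := TC24.exists_div_A0 N _ h
  letI : Algebra Kb C24.Kc := iotaKC.toAlgebra
  let b := Module.Basis.ofVectorSpace Kb C24.Kc
  -- a coefficient of `w` and a coordinate which do not vanish
  obtain ⟨n, hn⟩ : ∃ n, w.coeff n ≠ 0 := by
    by_contra hcon
    push Not at hcon
    exact hw0 (HahnSeries.ext (funext hcon))
  obtain ⟨s, hs⟩ : ∃ s, b.repr (w.coeff n) s ≠ 0 := by
    by_contra hcon
    push Not at hcon
    apply hn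
    apply b.repr.injective
    rw [map_zero]
    exact Finsupp.ext hcon
  let ℓ : C24.Kc →+ Kb := (b.coord s).toAddMonoidHom
  have hℓ : ∀ (a : Kb) (e : C24.Kc), ℓ (e * iotaKC a) = ℓ e * a := by
    intro a e
    have h1 : e * iotaKC a = a • e := by
      rw [Algebra.smul_def, mul_comm]
      rfl
    rw [h1]
    show b.coord s (a • e) = b.coord s e * a
    rw [map_smul, smul_eq_mul, mul_comm]
  have hwx : w * ModularCurve.coeffMap iotaKC x = u := by
    rw [hx, mul_div_cancel₀ _ hw0]
  have h2 := Rational.map_mul_coeffMap iotaKC ℓ hℓ w x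
  rw [hwx] at h2
  have hw' : w.map ℓ ≠ 0 := by
    intro h0
    apply hs
    have := congrArg (fun y : LaurentSeries Kb => y.coeff n) h0
    exact this
  have hx' : x = u.map ℓ / w.map ℓ := by
    rw [h2, mul_div_cancel_left₀ _ hw']
  rw [hx']
  exact div_mem (A0_le N _ (Rational.map_mem_A0 N ℓ hℓ u hu))
    (A0_le N _ (Rational.map_mem_A0 N ℓ hℓ w hw))

end Fermat.Agent.T24.NV
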