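import Fermat.Agent.S48.TNV.Canon
import Fermat.Agent.S48.TNV.Rational
import Fermat.Agent.S48.TNV.PowC
import Fermat.Agent.S48.TNV.FinChar
import Fermat.Agent.S48.TNV.Kc.Exists

set_option autoImplicit false

/-!
# NV task DESC-Desc

Descent: every class `f * (F_ℂˣ)^m` with `m ∣ div f` contains an element of `F_ℚ̄`.

SKETCH.  `divBy_arC`: `(σ • v).ord (σ f) = v.ord f` (`AlgebraicCurve.SemilinearAut.ord_smul`, `ModularCurve.arithmeticGalois`), and `v = σ • (σ⁻¹ • v)`.
Let `g` be given by `exists_canonical`.  CLAIM: all coefficients of `g.1` are in the range of `iotaKC`.  Otherwise let `x = g.1.coeff n ∉ range`; `exists_infinite_orbit x` gives `σ_i`, `i : ℕ`, with `σ_i x` pairwise distinct.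
`σ_i f` has divisor divisible by `m`, so it has a character `χ_i` (`TC24.Ch.exists_hasChar`), `χ_i ^ m = 1` (`HasChar.pow_eq_one`).  By `finite_chr` and the pigeonhole principle (`Finite.exists_ne_map_eq_of_infinite`) there are `i ≠ i'` with `χ_i = χ_i'`.
Then `σ_i f * (σ_i' f)⁻¹` has character `1` (`HasChar.mul`, `HasChar.inv`), so it is `w ^ m` (`exists_pow_of_hasChar_one_C`).  With `τ = σ_i'⁻¹ * σ_i`: `τ f = f * (σ_i'⁻¹ w) ^ m`, so `τ g = g`, so `σ_i g = σ_i' g`, in particular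
`σ_i x = σ_i' x`: contradiction.
So `g.1 = coeffMap iotaKC g₀` (define `g₀` coefficientwise as in `C24.twist_mem_range_coeffMap_iff` / `S24.twist_mem_range_coeffMap_iff`), `g₀ ∈ F_ℚ̄` by `mem_of_coeffMap_mem`.
-/

open UpperHalfPlane ModularForm CongruenceSubgroup
open scoped MatrixGroups Manifold

namespace Fermat.Agent.T24.NV

open Fermat.Agent.S24
open Fermat.Agent.C24 (Kc iotaC iotaCinv iotaC_iotaCinv iotaCinv_iotaC mem_range_iotaC)
open Fermat.Agent.TC24 (mffC)

theorem divBy_arC {N m : ℕ} [Cond N] {f : TC24.FN N} (h : TC24.Ch.DivBy N m f) (σ : Kc ≃ₐ[ℚ] Kc) :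
    TC24.Ch.DivBy N m (arC N σ f) := by
  intro v
  set g := ModularCurve.arithmeticGalois (T24.modularFunctionFieldFull N) σ with hg
  have h1 := AlgebraicCurve.SemilinearAut.ord_smul g (g⁻¹ • v) f
  rw [smul_inv_smul] at h1
  have h2 : g • f = arC N σ f := rfl
  rw [h2] at h1
  rw [h1]
  exact h _

namespace Desc

theorem arC_mul (N : ℕ) [Cond N] (σ τ : Kc ≃ₐ[ℚ] Kc) (f : TC24.FN N) :
    arC N (σ * τ) f = arC N σ (arC N τ f) := by
  have := map_mul (ModularCurve.arithmeticGalois (T24.modularFunctionFieldFull N)) σ τ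
  have h2 := congrArg (fun g => g • f) this
  exact h2

theorem arC_inv_apply (N : ℕ) [Cond N] (σ : Kc ≃ₐ[ℚ] Kc) (f : TC24.FN N) :
    arC N σ⁻¹ (arC N σ f) = f := by
  rw [← arC_mul, inv_mul_cancel]
  have := map_one (ModularCurve.arithmeticGalois (T24.modularFunctionFieldFull N) (L := Kc))
  have h2 := congrArg (fun g => g • f) this
  exact h2

theorem coeff_arC (N : ℕ) [Cond N] (σ : Kc ≃ₐ[ℚ] Kc) (f : TC24.FN N) (n : ℤ) :
    (arC N σ f).1.coeff n = σ (f.1.coeff n) := rfl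

end Desc

theorem exists_descent (N : ℕ) [NeZero N] [Cond N] (m : ℕ) (hm : 0 < m) (f : TC24.FN N) (hf : f ≠ 0)
    (hd : TC24.Ch.DivBy N m f) :
    ∃ (f₀ : T24.FN N) (u : TC24.FN N), u ≠ 0 ∧ iotaF N f₀ = f * u ^ m := by
  obtain ⟨g, hg0, ⟨w, hw0, hgw⟩, hfix⟩ := exists_canonical N m hm f hf
  have hcoef : ∀ n, g.1.coeff n ∈ iotaKC.range := by
    intro n
    by_contra hx
    obtain ⟨σ, -, hσinj⟩ := exists_infinite_orbit _ hx
    have hne : ∀ i, arC N (σ i) f ≠ 0 := fun i => by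
      rw [Ne, map_eq_zero_iff _ (arC N (σ i)).injective]; exact hf
    choose χ hχ using fun i => TC24.Ch.exists_hasChar hm (hne i) (divBy_arC hd (σ i))
    haveI := finite_chr N m hm
    obtain ⟨i, i', hii, hχeq⟩ := Finite.exists_ne_map_eq_of_infinite
      (fun i : ℕ => (⟨χ i, (hχ i).pow_eq_one hm⟩ : {χ : Chr N // χ ^ m = 1}))
    have hχeq' : χ i = χ i' := congrArg Subtype.val hχeq
    have h1 : TC24.Ch.HasChar N m (arC N (σ i) f * (arC N (σ i') f)⁻¹) 1 := by
      have := (hχ i).mul ((hχ i').inv hm)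
      have h0 : χ i * (χ i')⁻¹ = 1 := by
        rw [hχeq']; ext γ; simp
      rwa [h0] at this
    obtain ⟨w', hw'⟩ := exists_pow_of_hasChar_one_C hm h1
    have hw'0 : w' ≠ 0 := by
      rintro rfl
      rw [zero_pow hm.ne'] at hw'
      exact mul_ne_zero (hne i) (inv_ne_zero (hne i')) hw'
    have h2 : arC N (σ i) f = arC N (σ i') f * w' ^ m := by
      rw [← hw']; field_simp [hne i']
    have h3 : arC N ((σ i')⁻¹ * σ i) f = f * (arC N (σ i')⁻¹ w') ^ m := by
      rw [Desc.arC_mul, h2, map_mul, Desc.arC_inv_apply, map_pow]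
    have h4 := hfix ((σ i')⁻¹ * σ i) ⟨_, by
      rw [Ne, map_eq_zero_iff _ (arC N (σ i')⁻¹).injective]; exact hw'0, h3⟩
    have h5 : arC N (σ i) g = arC N (σ i') g := by
      have := congrArg (arC N (σ i')) h4
      rw [← Desc.arC_mul, mul_inv_cancel_left] at this
      exact this
    have h6 := congrArg (fun y : TC24.FN N => y.1.coeff n) h5
    exact hii (hσinj h6)
  choose c hc using hcoef
  have hsupp : Function.support c ⊆ g.1.support := by
    intro n hn
    rw [HahnSeries.mem_support, ← hc n]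
    exact fun h0 => hn ((map_eq_zero iotaKC).mp h0)
  have hg₀ : ModularCurve.coeffMap iotaKC (⟨c, g.1.isPWO_support.mono hsupp⟩ : LaurentSeries Kb)
      = g.1 := by
    ext n
    rw [ModularCurve.coeffMap_coeff]
    exact hc n
  have hmem := mem_of_coeffMap_mem N (⟨c, g.1.isPWO_support.mono hsupp⟩ : LaurentSeries Kb)
    (by rw [hg₀]; exact g.2)
  refine ⟨⟨_, hmem⟩, w, hw0, ?_⟩
  rw [← hgw]
  apply Subtype.ext
  rw [coe_iotaF]
  exact hg₀

end Fermat.Agent.T24.NV
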