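import Fermat.Agent.S48.TNV.Defs

set_option autoImplicit false

/-!
# NV task A3a-EisGen

Eisenstein type series of weight `12` with bounded coefficients: holomorphy, boundedness at `i∞`,
transformation under `SL(2,ℤ)`.

SKETCH.  Everything is a copy of the Mathlib treatment of `EisensteinSeries.eisensteinSeries`
(`Mathlib/NumberTheory/ModularForms/EisensteinSeries/{Summable,UniformConvergence,MDifferentiable,IsBoundedAtImInfty}.lean`)
with the extra factor `c v`, `‖c v‖ ≤ 1`: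
* `EisensteinSeries.summable_norm_eisSummand`, `EisensteinSeries.summand_bound_of_mem_verticalStrip` give the majorant;
* holomorphy: locally uniform convergence (Weierstrass M-test) + `TendstoLocallyUniformlyOn.differentiableOn`;
* boundedness: for `im z ≥ 1`, translate... (see `EisensteinSeries.isBoundedAtImInfty_eisensteinSeries_SIF` and
  `EisensteinSeries.norm_le_tsum_norm`; note that here there is no periodicity, so use the bound
  `r z` of Mathlib which only depends on a vertical strip; to reduce to a strip use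
  `eisC_smul` with `g = T ^ n` : `eisC c (z + n) = eisC c' z` with `c'` again bounded by `1`);
* `eisC_smul`: `EisensteinSeries.eisSummand_SL2_apply` + reindexing of the sum by the bijection `v ↦ v ᵥ* g`.
-/

open UpperHalfPlane ModularForm CongruenceSubgroup EisensteinSeries
open scoped MatrixGroups Manifold

namespace Fermat.Agent.T24.NV

/-- `∑_v c(v) (v₀ z + v₁)⁻¹²`. -/
noncomputable def eisC (c : (Fin 2 → ℤ) → ℂ) (z : ℍ) : ℂ :=
  ∑' v : Fin 2 → ℤ, c v * eisSummand 12 v z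

namespace EisGen

theorem norm_term_le {c : (Fin 2 → ℤ) → ℂ} (hc : ∀ v, ‖c v‖ ≤ 1) (v : Fin 2 → ℤ) (z : ℍ) :
    ‖c v * eisSummand 12 v z‖ ≤ ‖eisSummand 12 v z‖ := by
  rw [norm_mul]
  exact mul_le_of_le_one_left (norm_nonneg _) (hc v)

/-- `v ↦ v ᵥ* g` as a bijection. -/
def vecEquiv (g : SL(2, ℤ)) : (Fin 2 → ℤ) ≃ (Fin 2 → ℤ) where
  toFun v := Matrix.vecMul v (g : Matrix (Fin 2) (Fin 2) ℤ)
  invFun v := Matrix.vecMul v ((g⁻¹ : SL(2, ℤ)) : Matrix (Fin 2) (Fin 2) ℤ)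
  left_inv v := by
    simp only [Matrix.vecMul_vecMul]
    rw [← Matrix.SpecialLinearGroup.coe_mul, mul_inv_cancel]
    simp
  right_inv v := by
    simp only [Matrix.vecMul_vecMul]
    rw [← Matrix.SpecialLinearGroup.coe_mul, inv_mul_cancel]
    simp

theorem term_bound {c : (Fin 2 → ℤ) → ℂ} (hc : ∀ v, ‖c v‖ ≤ 1) (v : Fin 2 → ℤ) {A B : ℝ}
    (hB : 0 < B) {z : ℍ} (hz : z ∈ verticalStrip A B) :
    ‖c v * eisSummand 12 v z‖ ≤ r ⟨⟨A, B⟩, hB⟩ ^ (-(12 : ℝ)) * ‖v‖ ^ (-(12 : ℝ)) := by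
  refine (norm_term_le hc v z).trans ?_
  have h := summand_bound_of_mem_verticalStrip (k := 12) (by norm_num) v hB hz
  simp only [eisSummand, norm_zpow]
  have e : ‖(v 0 : ℂ) * (z : ℂ) + (v 1 : ℂ)‖ ^ (-(12 : ℤ)) =
      ‖(v 0 : ℂ) * (z : ℂ) + (v 1 : ℂ)‖ ^ (-(12 : ℝ)) := by
    rw [← Real.rpow_intCast]
    norm_num
  rw [e]
  exact h

theorem summable_majorant (C : ℝ) :
    Summable fun v : Fin 2 → ℤ => C * ‖v‖ ^ (-(12 : ℝ)) :=
  (summable_one_div_norm_rpow (k := 12) (by norm_num)).mul_left C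

theorem tendstoLocallyUniformly {c : (Fin 2 → ℤ) → ℂ} (hc : ∀ v, ‖c v‖ ≤ 1) :
    TendstoLocallyUniformly
      (fun (s : Finset (Fin 2 → ℤ)) ↦ (∑ x ∈ s, c x * eisSummand 12 x ·))
      (eisC c ·) Filter.atTop := by
  simp only [tendstoLocallyUniformly_iff_forall_isCompact, eisC]
  intro K hK
  obtain ⟨A, B, hB, HABK⟩ := subset_verticalStrip_of_isCompact hK
  exact (tendstoUniformlyOn_tsum (hu := summable_majorant (r ⟨⟨A, B⟩, hB⟩ ^ (-(12 : ℝ))))
    (fun p z hz ↦ term_bound hc p hB hz)).mono HABK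

theorem tendstoLocallyUniformlyOn {c : (Fin 2 → ℤ) → ℂ} (hc : ∀ v, ‖c v‖ ≤ 1) :
    TendstoLocallyUniformlyOn (fun (s : Finset (Fin 2 → ℤ)) ↦
      ↑ₕ(fun (z : ℍ) ↦ ∑ x ∈ s, c x * eisSummand 12 x z)) (↑ₕ(eisC c))
          Filter.atTop {z : ℂ | 0 < z.im} := by
  rw [← upperHalfPlaneSet, ← range_coe, ← Set.image_univ]
  apply TendstoLocallyUniformlyOn.comp (s := ⊤) _ _ _ (OpenPartialHomeomorph.continuousOn_symm _)
  · simp only [Set.top_eq_univ, tendstoLocallyUniformlyOn_univ]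
    exact tendstoLocallyUniformly hc
  · simp only [Topology.IsOpenEmbedding.toOpenPartialHomeomorph_target, Set.top_eq_univ,
      Set.mapsTo_range_iff, Set.mem_univ, forall_const]

theorem term_differentiableOn (c : ℂ) (a : Fin 2 → ℤ) :
    DifferentiableOn ℂ (↑ₕ(fun z : ℍ => c * eisSummand 12 a z)) {z : ℂ | 0 < z.im} :=
  (eisSummand_extension_differentiableOn 12 a).const_mul c

end EisGen

theorem eisC_summable {c : (Fin 2 → ℤ) → ℂ} (hc : ∀ v, ‖c v‖ ≤ 1) (z : ℍ) :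
    Summable fun v : Fin 2 → ℤ => c v * eisSummand 12 v z :=
  Summable.of_norm_bounded (summable_norm_eisSummand (by norm_num) z)
    (fun v => EisGen.norm_term_le hc v z)

set_option linter.unusedVariables false in
theorem eisC_smul {c : (Fin 2 → ℤ) → ℂ} (hc : ∀ v, ‖c v‖ ≤ 1) (g : SL(2, ℤ)) (z : ℍ) :
    eisC c (g • z) = denom g z ^ (12 : ℤ) *
      eisC (fun v => c (Matrix.vecMul v ((g⁻¹ : SL(2, ℤ)) : Matrix (Fin 2) (Fin 2) ℤ))) z := by
  simp only [eisC, eisSummand_SL2_apply]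
  rw [← tsum_mul_left]
  have h := (EisGen.vecEquiv g).tsum_eq (fun w => denom g z ^ (12 : ℤ) *
    (c (Matrix.vecMul w ((g⁻¹ : SL(2, ℤ)) : Matrix (Fin 2) (Fin 2) ℤ)) * eisSummand 12 w z))
  rw [← h]
  refine tsum_congr fun v => ?_
  have h1 : Matrix.vecMul (EisGen.vecEquiv g v) ((g⁻¹ : SL(2, ℤ)) : Matrix (Fin 2) (Fin 2) ℤ) = v :=
    (EisGen.vecEquiv g).left_inv v
  rw [h1]
  show _ = _ * (c v * eisSummand 12 (Matrix.vecMul v (g : Matrix (Fin 2) (Fin 2) ℤ)) z)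
  ring

theorem eisC_mdiff {c : (Fin 2 → ℤ) → ℂ} (hc : ∀ v, ‖c v‖ ≤ 1) : MDiff (eisC c) := by
  rw [UpperHalfPlane.mdifferentiable_iff]
  refine (EisGen.tendstoLocallyUniformlyOn hc).differentiableOn
    (Filter.Eventually.of_forall fun s ↦ ?_) isOpen_upperHalfPlaneSet
  have : (↑ₕ(fun (z : ℍ) ↦ ∑ x ∈ s, c x * eisSummand 12 x z)) =
      fun w => ∑ x ∈ s, (↑ₕ(fun z : ℍ => c x * eisSummand 12 x z)) w := by
    funext w
    simp
  rw [this]
  exact DifferentiableOn.fun_sum fun x _ ↦ EisGen.term_differentiableOn (c x) x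

theorem eisC_bdd {c : (Fin 2 → ℤ) → ℂ} (hc : ∀ v, ‖c v‖ ≤ 1) : IsBoundedAtImInfty (eisC c) := by
  rw [UpperHalfPlane.isBoundedAtImInfty_iff]
  refine ⟨∑' (x : Fin 2 → ℤ), r ⟨⟨1, 2⟩, Nat.ofNat_pos⟩ ^ (-(12 : ℝ)) * ‖x‖ ^ (-(12 : ℝ)), 2, ?_⟩
  intro z hz
  obtain ⟨n, hn⟩ := ModularGroup_T_zpow_mem_verticalStrip z (N := 1) one_pos
  set w : ℍ := ModularGroup.T ^ ((1 : ℕ) * n) • z with hw
  have hzw : z = (ModularGroup.T ^ ((1 : ℕ) * n))⁻¹ • w := by
    rw [hw, inv_smul_smul]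
  have hden : denom ((ModularGroup.T ^ ((1 : ℕ) * n))⁻¹ : SL(2, ℤ)) w = 1 := by
    rw [← zpow_neg, ModularGroup.denom_apply, ModularGroup.coe_T_zpow]
    simp
  rw [hzw, eisC_smul hc, hden, one_zpow, one_mul]
  set c' : (Fin 2 → ℤ) → ℂ := fun v => c (Matrix.vecMul v
    (((ModularGroup.T ^ ((1 : ℕ) * n))⁻¹⁻¹ : SL(2, ℤ)) : Matrix (Fin 2) (Fin 2) ℤ)) with hc'
  have hc1 : ∀ v, ‖c' v‖ ≤ 1 := fun v => hc _
  have hstrip : w ∈ verticalStrip 1 2 := by
    have := verticalStrip_anti_right (1 : ℕ) hz hn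
    simpa using this
  have hsum : Summable fun v : Fin 2 → ℤ => ‖c' v * eisSummand 12 v w‖ :=
    (summable_norm_eisSummand (by norm_num) w).of_nonneg_of_le (fun _ => norm_nonneg _)
      (fun v => EisGen.norm_term_le hc1 v w)
  refine (norm_tsum_le_tsum_norm hsum).trans ?_
  exact hsum.tsum_le_tsum (fun v => EisGen.term_bound hc1 v two_pos hstrip)
    (EisGen.summable_majorant _)

end Fermat.Agent.T24.NV
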