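import Fermat.Agent.S48.TNV.LevelOne
import Fermat.Agent.S48.TNV.Equiv
import Fermat.Agent.S48.TC24.Cards

set_option autoImplicit false

/-!
# NV task B1-InvC

A `Γ₀(N)`-invariant weakly holomorphic function is (the function attached to) an element of the function field over `ℂ`.

SKETCH (Lagrange interpolation).  `Q = SL(2,ℤ) ⧸ Γ₀(N)` (finite: `TC24.CardsC.finite_Q`), `t = jd N`, `t_q = act q.out t`, `y_q = act q.out y`; for `g : SL(2,ℤ)`: `act g t_q = t_{g q}`, `act g y_q = y_{g q}`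
(because `t`, `y` are `Γ₀(N)`-invariant; compare `TC24.degree_actB_out`).  The `t_q` are pairwise distinct (`mem_Gamma0_of_act_jd_eq` in `S24/ExpandC.lean`).
In the ring `R = Wh N` (or `holSub`), put `P = ∏_q (X - t_q)`, `D = ∑_q ∏_{q' ≠ q} (X - t_q')` (`= P'`), `L = ∑_q y_q ∏_{q' ≠ q} (X - t_q')`.
The coefficients of `D` and `L` are `SL(2,ℤ)`-invariant (reindexing, compare `TC24.degreeH_map_actB`) elements of `perSub N`, so they are polynomials in `jFun` with complex coefficients (`exists_poly_of_inv`), hence of the form `TC24.PhiB N c`, `c ∈ TC24.A0 N`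
(`TC24.PhiB_const`, `TC24.PhiB_Jser` with `d = 1`, `jd_one`; constants: `C24.constK (iotaCinv x)`).  Also `t = TC24.PhiB N (Jser N)`.
Evaluate at `X = t = t_{q₀}`, `q₀ = 1`: `L(t) = y * ∏_{q' ≠ q₀} (t - t_q') = y * D(t)`.  `w = D(t)`, `u = L(t)` are in the image of `TC24.PhiB N`;
`D(t) ≠ 0` since `holSub` is a domain (`eq_zero_or_eq_zero_of_mul`).
-/

open UpperHalfPlane ModularForm CongruenceSubgroup
open scoped MatrixGroups Manifold

namespace Fermat.Agent.T24.NV

open Fermat.Agent.S24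

namespace InvC

/-- the image of `TC24.PhiB N`, as a subring of all functions. -/
noncomputable def imA (N : ℕ) [NeZero N] [Cond N] : Subring (ℍ → ℂ) :=
  ((TC24.Btil N).subtype.comp (TC24.PhiB N)).range

theorem mem_imA {N : ℕ} [NeZero N] [Cond N] {b : ℍ → ℂ} :
    b ∈ imA N ↔ ∃ a : TC24.A0 N, (TC24.PhiB N a : ℍ → ℂ) = b := Iff.rfl

theorem const_mem (N : ℕ) [NeZero N] [Cond N] (x : ℂ) : (fun _ : ℍ => x) ∈ imA N :=
  ⟨algebraMap C24.Kc (TC24.A0 N) (C24.iotaCinv x), by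
    change ((TC24.PhiB N (algebraMap C24.Kc (TC24.A0 N) (C24.iotaCinv x)) : TC24.Btil N) : ℍ → ℂ) = _
    rw [TC24.PhiB_const]
    rfl⟩

theorem jd_mem (N : ℕ) [NeZero N] [Cond N] {d : ℕ} (hd : d ∣ N) : jd d ∈ imA N :=
  ⟨⟨C24.Jser d, TC24.Jser_mem_A0 hd⟩, TC24.PhiB_Jser N hd⟩

theorem poly_mem (N : ℕ) [NeZero N] [Cond N] (P : Polynomial ℂ) :
    (fun z : ℍ => P.eval (jFun z)) ∈ imA N := by
  induction P using Polynomial.induction_on' with
  | add p q hp hq =>
    have : (fun z : ℍ => (p + q).eval (jFun z)) =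
        (fun z : ℍ => p.eval (jFun z)) + fun z : ℍ => q.eval (jFun z) := by
      funext z; simp
    rw [this]
    exact add_mem hp hq
  | monomial n a =>
    have : (fun z : ℍ => (Polynomial.monomial n a).eval (jFun z)) =
        (fun _ : ℍ => a) * (jd 1) ^ n := by
      funext z; simp [jd_one]
    rw [this]
    exact mul_mem (const_mem N a) (pow_mem (jd_mem N (one_dvd N)) n)

theorem inv_mem_imA (N : ℕ) [NeZero N] [Cond N] (b : ℍ → ℂ) (hb : b ∈ Wh N)
    (hinv : ∀ g : SL(2, ℤ), act g b = b) : b ∈ imA N := by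
  have hb1 : b ∈ perSub N := by
    have := mem_Wh.mp hb 1
    rwa [act_one] at this
  obtain ⟨P, hP⟩ := exists_poly_of_inv N b hb1 hinv
  have : b = fun z : ℍ => P.eval (jFun z) := funext hP
  rw [this]
  exact poly_mem N P

theorem act_mem_Wh {N : ℕ} [Cond N] (g : SL(2, ℤ)) {b : ℍ → ℂ} (hb : b ∈ Wh N) : act g b ∈ Wh N := by
  rw [mem_Wh]
  intro g'
  rw [← act_mul]
  exact mem_Wh.mp hb _

/-- the action on `Wh N`. -/
noncomputable def actW (N : ℕ) [Cond N] (g : SL(2, ℤ)) : Wh N →+* Wh N :=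
  ((act g).comp (Wh N).subtype).codRestrict (Wh N) fun b => act_mem_Wh g b.2

theorem coe_actW (N : ℕ) [Cond N] (g : SL(2, ℤ)) (b : Wh N) : ((actW N g b : Wh N) : ℍ → ℂ) = act g b := rfl

theorem jd_mem_Wh (N : ℕ) [NeZero N] [Cond N] : jd N ∈ Wh N := by
  rw [mem_Wh]
  intro g
  exact Btil_le_perSub N (act_jd_mem_Btil g dvd_rfl)

/-- translates of an invariant function are indexed by the cosets. -/
theorem act_out {N : ℕ} [Cond N] {f : ℍ → ℂ} (hf : ∀ γ ∈ Gam N, act γ f = f) (g : SL(2, ℤ))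
    (q : SL(2, ℤ) ⧸ Gam N) : act g (act q.out f) = act (g • q).out f := by
  have h1 : g • q = ((g * q.out : SL(2, ℤ)) : SL(2, ℤ) ⧸ Gam N) := by
    conv_lhs => rw [← QuotientGroup.out_eq' q]
    rfl
  obtain ⟨γ, hγ⟩ := QuotientGroup.mk_out_eq_mul (Gam N) (g * q.out)
  rw [h1, hγ, act_mul, hf γ γ.2, act_mul]

/-- division by a monic linear factor preserves a subring of coefficients. -/
theorem coeff_mem_of_mul {R : Type*} [CommRing R] (S : Subring R) (P E : Polynomial R) (t : R)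
    (ht : t ∈ S) (hP : ∀ k, P.coeff k ∈ S) (h : P = (Polynomial.X - Polynomial.C t) * E) (k : ℕ) :
    E.coeff k ∈ S := by
  have hrec : ∀ k, E.coeff k = P.coeff (k + 1) + t * E.coeff (k + 1) := by
    intro k
    rw [h, sub_mul, Polynomial.coeff_sub, Polynomial.coeff_X_mul, Polynomial.coeff_C_mul]
    ring
  have key : ∀ d k, E.natDegree < k + d → E.coeff k ∈ S := by
    intro d
    induction d with
    | zero =>
      intro k hk
      rw [Polynomial.coeff_eq_zero_of_natDegree_lt (by simpa using hk)]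
      exact S.zero_mem
    | succ d ih =>
      intro k hk
      rw [hrec k]
      exact S.add_mem (hP _) (S.mul_mem ht (ih (k + 1) (by omega)))
  exact key (E.natDegree + 1) k (by omega)

theorem prod_ne_zero {ι : Type*} (s : Finset ι) (f : ι → ℍ → ℂ) (hd : ∀ i ∈ s, MDiff (f i))
    (h0 : ∀ i ∈ s, f i ≠ 0) : MDiff (∏ i ∈ s, f i) ∧ ∏ i ∈ s, f i ≠ 0 := by
  classical
  induction s using Finset.induction_on with
  | empty =>
    refine ⟨?_, ?_⟩
    · rw [Finset.prod_empty]; exact mdifferentiable_const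
    · rw [Finset.prod_empty]; exact one_ne_zero
  | insert a s ha ih =>
    obtain ⟨i1, i2⟩ := ih (fun i hi => hd i (Finset.mem_insert_of_mem hi))
      (fun i hi => h0 i (Finset.mem_insert_of_mem hi))
    rw [Finset.prod_insert ha]
    refine ⟨(hd a (Finset.mem_insert_self a s)).mul i1, fun h => ?_⟩
    rcases eq_zero_or_eq_zero_of_mul (hd a (Finset.mem_insert_self a s)) i1
      (fun z => congrFun h z) with h | h
    · exact h0 a (Finset.mem_insert_self a s) h
    · exact i2 h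

theorem te_mem_Wh (N : ℕ) [NeZero N] [Cond N] : te (Cond.D N) 1 1 ∈ Wh N := by
  rw [mem_Wh]
  intro g
  exact Btil_le_perSub N (act_mem_Btil g (te_mem_Btil (by rw [one_mul]; exact Cond.dvd) 1))

theorem te_mem (N : ℕ) [NeZero N] [Cond N] : te (Cond.D N) 1 1 ∈ imA N :=
  ⟨⟨TC24.Tser (Cond.D N) 1 1, TC24.Tser_mem_A0 (by rw [one_mul]; exact Cond.dvd) 1⟩,
    TC24.PhiB_Tser N (by rw [one_mul]; exact Cond.dvd) 1⟩

/-- a primitive element: `j (N z) + c t₁ (z)`. -/
theorem exists_prim (N : ℕ) [NeZero N] [Cond N] : ∃ t : ℍ → ℂ, t ∈ Wh N ∧ t ∈ imA N ∧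
    (∀ γ ∈ Gam N, act γ t = t) ∧ ∀ g : SL(2, ℤ), act g t = t → g ∈ Gam N := by
  classical
  have : Finite (SL(2, ℤ) ⧸ Gam N) := TC24.CardsC.finite_Q N
  have hD : 1 * Cond.D N ∣ N := by rw [one_mul]; exact Cond.dvd
  set τ : ℍ → ℂ := te (Cond.D N) 1 1 with hτ
  let tc : ℂ → ℍ → ℂ := fun c => jd N + (fun _ : ℍ => c) * τ
  have hact : ∀ (g : SL(2, ℤ)) (c : ℂ), act g (tc c) = act g (jd N) + (fun _ : ℍ => c) * act g τ := by
    intro g c
    show act g (jd N + (fun _ : ℍ => c) * τ) = _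
    rw [map_add, map_mul]
    rfl
  have hinv : ∀ c, ∀ γ ∈ Gam N, act γ (tc c) = tc c := by
    intro c γ hγ
    rw [hact, act_jd_of_mem_Gamma0 dvd_rfl γ hγ.1, hτ, act_te_of_mem_Gam hD 1 γ hγ]
  let B : (SL(2, ℤ) ⧸ Gam N) → Set ℂ := fun q => {c | q.out ∉ Gam N ∧ act q.out (tc c) = tc c}
  have hB : ∀ q, (B q).Subsingleton := by
    intro q c hc c' hc'
    by_contra hne
    apply hc.1
    have h1 := hc.2
    have h2 := hc'.2
    rw [hact] at h1 h2
    have h3 : act q.out τ = τ := by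
      funext z
      have e1 := congrFun h1 z
      have e2 := congrFun h2 z
      simp only [tc, Pi.add_apply, Pi.mul_apply] at e1 e2
      have : (c - c') * (act q.out τ z - τ z) = 0 := by linear_combination e1 - e2
      rcases mul_eq_zero.1 this with h | h
      · exact absurd (sub_eq_zero.1 h) hne
      · exact sub_eq_zero.1 h
    have h4 : act q.out (jd N) = jd N := by
      rw [h3] at h1
      exact add_right_cancel h1
    exact mem_Gam_of_act_eq N _ h4 h3
  have hfin : (⋃ q, B q).Finite := Set.finite_iUnion fun q => (hB q).finite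
  obtain ⟨c, hc⟩ := hfin.infinite_compl.nonempty
  refine ⟨tc c, ?_, ?_, hinv c, ?_⟩
  · refine add_mem (jd_mem_Wh N) (mul_mem ?_ (te_mem_Wh N))
    rw [mem_Wh]
    intro g
    exact (isBd_const N c).isPer
  · exact add_mem (jd_mem N dvd_rfl) (mul_mem (const_mem N c) (te_mem N))
  · intro g hg
    obtain ⟨γ, hγ⟩ := QuotientGroup.mk_out_eq_mul (Gam N) g
    have h1 : act ((g : SL(2, ℤ) ⧸ Gam N)).out (tc c) = tc c := by
      rw [hγ, act_mul, hinv c γ γ.2, hg]
    have h2 : ((g : SL(2, ℤ) ⧸ Gam N)).out ∈ Gam N := by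
      by_contra hn
      exact hc (Set.mem_iUnion.2 ⟨_, hn, h1⟩)
    rw [hγ] at h2
    exact (Subgroup.mul_mem_cancel_right (Gam N) γ.2).1 h2

end InvC

theorem exists_ev (N : ℕ) [NeZero N] [Cond N] (y : ℍ → ℂ) (hy : y ∈ Wh N) (hinv : IsEqv N 1 y) :
    ∃ u w : TC24.A0 N, w ≠ 0 ∧
      ∀ z, (TC24.PhiB N w : ℍ → ℂ) z * y z = (TC24.PhiB N u : ℍ → ℂ) z := by
  classical
  have : Finite (SL(2, ℤ) ⧸ Gam N) := TC24.CardsC.finite_Q N
  have : Fintype (SL(2, ℤ) ⧸ Gam N) := Fintype.ofFinite _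
  obtain ⟨t, htW, htA, ht, htS⟩ := InvC.exists_prim N
  have hyi : ∀ γ ∈ Gam N, act γ y = y := by
    intro γ hγ
    have := hinv.act_eq ⟨γ, hγ⟩
    rw [this]
    funext z
    simp
  -- the conjugates
  let tq : SL(2, ℤ) ⧸ Gam N → Wh N := fun q => ⟨act q.out t, InvC.act_mem_Wh _ htW⟩
  let yq : SL(2, ℤ) ⧸ Gam N → Wh N := fun q => ⟨act q.out y, InvC.act_mem_Wh _ hy⟩
  have htq : ∀ g q, InvC.actW N g (tq q) = tq (g • q) := fun g q =>
    Subtype.ext (InvC.act_out ht g q)
  have hyq : ∀ g q, InvC.actW N g (yq q) = yq (g • q) := fun g q =>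
    Subtype.ext (InvC.act_out hyi g q)
  let S : Subring (Wh N) := (InvC.imA N).comap (Wh N).subtype
  have hS : ∀ b : Wh N, (∀ g, InvC.actW N g b = b) → b ∈ S := by
    intro b hb
    exact InvC.inv_mem_imA N b b.2 fun g => congrArg Subtype.val (hb g)
  let q₀ : SL(2, ℤ) ⧸ Gam N := ((1 : SL(2, ℤ)) : SL(2, ℤ) ⧸ Gam N)
  have hq₀ : q₀.out ∈ Gam N := by
    obtain ⟨γ, hγ⟩ := QuotientGroup.mk_out_eq_mul (Gam N) 1
    rw [one_mul] at hγ
    have : q₀.out = γ := hγ
    rw [this]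
    exact γ.2
  have ht₀ : ((tq q₀ : Wh N) : ℍ → ℂ) = t := ht _ hq₀
  have hy₀ : ((yq q₀ : Wh N) : ℍ → ℂ) = y := hyi _ hq₀
  have ht₀S : tq q₀ ∈ S := by
    show ((tq q₀ : Wh N) : ℍ → ℂ) ∈ InvC.imA N
    rw [ht₀]
    exact htA
  let P : Polynomial (Wh N) := ∏ q, (Polynomial.X - Polynomial.C (tq q))
  let E : Polynomial (Wh N) := ∏ q ∈ Finset.univ.erase q₀, (Polynomial.X - Polynomial.C (tq q))
  have hPE : P = (Polynomial.X - Polynomial.C (tq q₀)) * E :=
    (Finset.mul_prod_erase Finset.univ (fun q => Polynomial.X - Polynomial.C (tq q))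
      (Finset.mem_univ q₀)).symm
  have hPmap : ∀ g, P.map (InvC.actW N g) = P := by
    intro g
    show (∏ q, (Polynomial.X - Polynomial.C (tq q))).map (InvC.actW N g) = _
    rw [Polynomial.map_prod]
    simp only [Polynomial.map_sub, Polynomial.map_X, Polynomial.map_C, htq]
    exact Equiv.prod_comp (MulAction.toPerm g) (fun q => Polynomial.X - Polynomial.C (tq q))
  have hPS : ∀ k, P.coeff k ∈ S := by
    intro k
    apply hS
    intro g
    conv_rhs => rw [← hPmap g]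
    rw [Polynomial.coeff_map]
  have hES : ∀ k, E.coeff k ∈ S := InvC.coeff_mem_of_mul S P E (tq q₀) ht₀S hPS hPE
  have huS : ∀ k : ℕ, ∑ q, yq q * tq q ^ k ∈ S := by
    intro k
    apply hS
    intro g
    rw [map_sum]
    simp only [map_mul, map_pow, htq, hyq]
    exact Equiv.sum_comp (MulAction.toPerm g) (fun q => yq q * tq q ^ k)
  let w : Wh N := E.eval (tq q₀)
  let u : Wh N := ∑ k ∈ Finset.range (E.natDegree + 1), E.coeff k * ∑ q, yq q * tq q ^ k
  have hwS : w ∈ S := by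
    show E.eval (tq q₀) ∈ S
    rw [Polynomial.eval_eq_sum_range]
    exact S.sum_mem fun k _ => S.mul_mem (hES k) (S.pow_mem ht₀S k)
  have huS' : u ∈ S := S.sum_mem fun k _ => S.mul_mem (hES k) (huS k)
  have hEz : ∀ q, q ≠ q₀ → E.eval (tq q) = 0 := by
    intro q hq
    show (∏ q ∈ Finset.univ.erase q₀, (Polynomial.X - Polynomial.C (tq q))).eval (tq q) = 0
    rw [Polynomial.eval_prod]
    exact Finset.prod_eq_zero (Finset.mem_erase.2 ⟨hq, Finset.mem_univ q⟩) (by simp)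
  have huw : u = w * yq q₀ := by
    have h1 : u = ∑ q, yq q * E.eval (tq q) := by
      show ∑ k ∈ Finset.range (E.natDegree + 1), E.coeff k * ∑ q, yq q * tq q ^ k = _
      simp only [Polynomial.eval_eq_sum_range, Finset.mul_sum]
      rw [Finset.sum_comm]
      refine Finset.sum_congr rfl fun q _ => Finset.sum_congr rfl fun k _ => ?_
      ring
    rw [h1, Finset.sum_eq_single q₀ (fun q _ hq => by rw [hEz q hq, mul_zero])
      (fun h => absurd (Finset.mem_univ q₀) h)]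
    exact mul_comm _ _
  have hw0 : (w : ℍ → ℂ) ≠ 0 := by
    have h1 : (w : ℍ → ℂ) = ∏ q ∈ Finset.univ.erase q₀, (t - act q.out t) := by
      show ((E.eval (tq q₀) : Wh N) : ℍ → ℂ) = _
      show (((∏ q ∈ Finset.univ.erase q₀,
        (Polynomial.X - Polynomial.C (tq q))).eval (tq q₀) : Wh N) : ℍ → ℂ) = _
      rw [Polynomial.eval_prod]
      simp only [Polynomial.eval_sub, Polynomial.eval_X, Polynomial.eval_C]
      rw [SubmonoidClass.coe_finsetProd]
      refine Finset.prod_congr rfl fun q _ => ?_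
      rw [AddSubgroupClass.coe_sub, ht₀]
    rw [h1]
    have hmd : ∀ g : SL(2, ℤ), MDiff (act g t) := fun g =>
      IsPer.mdiff (mem_Wh.mp htW g)
    have hmd1 : MDiff t := by
      have := hmd 1
      rwa [act_one] at this
    refine (InvC.prod_ne_zero _ _ (fun q _ => hmd1.sub (hmd _)) fun q hq h => ?_).2
    apply (Finset.mem_erase.1 hq).1
    have h2 : act q.out t = t := (sub_eq_zero.1 h).symm
    have h3 := htS _ h2
    rw [← QuotientGroup.out_eq' q]
    show ((q.out : SL(2, ℤ)) : SL(2, ℤ) ⧸ Gam N) = ((1 : SL(2, ℤ)) : SL(2, ℤ) ⧸ Gam N)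
    rw [QuotientGroup.eq, mul_one]
    exact (Gam N).inv_mem h3
  obtain ⟨w', hw'⟩ := InvC.mem_imA.1 hwS
  obtain ⟨u', hu'⟩ := InvC.mem_imA.1 huS'
  refine ⟨u', w', ?_, fun z => ?_⟩
  · rintro rfl
    apply hw0
    rw [map_zero] at hw'
    exact hw'.symm
  · rw [hw', hu']
    have := congrArg (fun b : Wh N => (b : ℍ → ℂ) z) huw
    simp only [Subring.coe_mul, Pi.mul_apply, hy₀] at this
    exact this.symm

end Fermat.Agent.T24.NV
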