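import Fermat.Agent.S48.TNV.Defs

set_option autoImplicit false

/-!
# NV task LC-Level

Change of level for the expansions `TInf`, and expansions of `z ↦ f ((a z + b) / δ)`.
-/

open UpperHalfPlane ModularForm CongruenceSubgroup
open scoped MatrixGroups Manifold

namespace Fermat.Agent.T24.NV

open Fermat.Agent.S24

theorem level_isBd_of_dvd {d M : ℕ} (h : d ∣ M) {g : ℍ → ℂ} (hg : IsBd d g) : IsBd M g := by
  refine ⟨?_, hg.2.1, hg.2.2⟩
  obtain ⟨k, rfl⟩ := h
  have := hg.1.nat_mul k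
  have e : (((d * k : ℕ) : ℝ) : ℂ) = (k : ℂ) * ((d : ℝ) : ℂ) := by
    push_cast
    ring
  rw [e]
  exact this

theorem perSub_le_of_dvd {d M : ℕ} (h : d ∣ M) : perSub d ≤ perSub M := by
  rintro f ⟨m, hm⟩
  exact ⟨m, level_isBd_of_dvd h hm⟩

theorem level_qParam {d M : ℕ} (hd : 0 < d) (hM : 0 < M) (h : d ∣ M) (z : ℂ) :
    Function.Periodic.qParam d z = Function.Periodic.qParam M z ^ (M / d) := by
  obtain ⟨k, rfl⟩ := h
  have hk : 0 < k := Nat.pos_of_mul_pos_left hM |> fun _ => by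
    rcases Nat.eq_zero_or_pos k with rfl | h'
    · simp at hM
    · exact h'
  rw [Nat.mul_div_cancel_left _ hd]
  simp only [Function.Periodic.qParam]
  rw [← Complex.exp_nat_mul]
  congr 1
  have h1 : (d : ℂ) ≠ 0 := by exact_mod_cast hd.ne'
  have h2 : (k : ℂ) ≠ 0 := by exact_mod_cast hk.ne'
  push_cast
  field_simp

theorem level_hasSum {d M : ℕ} (hd : 0 < d) (hM : 0 < M) (h : d ∣ M) {g : ℍ → ℂ} (hg : IsBd d g)
    (τ : ℍ) :
    HasSum (fun m : ℕ => (if M / d ∣ m then (qExpansion d g).coeff (m / (M / d)) else 0) •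
      Function.Periodic.qParam M τ ^ m) (g τ) := by
  have hk : 0 < M / d := Nat.div_pos (Nat.le_of_dvd hM h) hd
  set k := M / d with hkdef
  have hs := hasSum_qExpansion (h := d) (by exact_mod_cast hd) hg.1 hg.2.1 hg.2.2 τ
  rw [level_qParam hd hM h] at hs
  have hinj : Function.Injective (fun n : ℕ => k * n) := fun x y hxy =>
    Nat.eq_of_mul_eq_mul_left hk hxy
  refine (Function.Injective.hasSum_iff hinj ?_).mp ?_
  · intro m hm
    have : ¬ k ∣ m := fun ⟨j, hj⟩ => hm ⟨j, hj.symm⟩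
    simp [this]
  · convert hs using 1
    funext n
    simp only [Function.comp_apply, dvd_mul_right, if_true, Nat.mul_div_cancel_left _ hk,
      smul_eq_mul]
    rw [← pow_mul]

theorem level_qExpansion {d M : ℕ} [NeZero d] [NeZero M] (h : d ∣ M) [NeZero (M / d)] {g : ℍ → ℂ}
    (hg : IsBd d g) :
    HahnSeries.ofPowerSeries ℤ ℂ (qExpansion M g) =
      ModularCurve.qExpand ℂ (M / d) (HahnSeries.ofPowerSeries ℤ ℂ (qExpansion d g)) := by
  have hd : 0 < d := Nat.pos_of_ne_zero (NeZero.ne d)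
  have hM : 0 < M := Nat.pos_of_ne_zero (NeZero.ne M)
  have hk : 0 < M / d := Nat.pos_of_ne_zero (NeZero.ne _)
  have hc := expA_unique (level_isBd_of_dvd h hg) (level_hasSum hd hM h hg)
  ext n
  rw [PowerSeries.coeff_coe]
  by_cases hkn : ((M / d : ℕ) : ℤ) ∣ n
  · obtain ⟨j, rfl⟩ := hkn
    rw [ModularCurve.qExpand_coeff_mul, PowerSeries.coeff_coe]
    have hk' : (0 : ℤ) < ((M / d : ℕ) : ℤ) := by exact_mod_cast hk
    by_cases hj : j < 0
    · rw [if_pos hj, if_pos (mul_neg_of_pos_of_neg hk' hj)]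
    · rw [if_neg hj, if_neg (by
        have : 0 ≤ j := not_lt.mp hj
        have := mul_nonneg hk'.le this
        omega), hc]
      obtain ⟨i, rfl⟩ := Int.eq_ofNat_of_zero_le (not_lt.mp hj)
      have h1 : (((M / d : ℕ) : ℤ) * (i : ℤ)).natAbs = M / d * i := by
        rw [← Nat.cast_mul, Int.natAbs_natCast]
      rw [h1, if_pos (dvd_mul_right _ _), Nat.mul_div_cancel_left _ hk, Int.natAbs_natCast]
  · rw [ModularCurve.qExpand_coeff_of_not_dvd _ _ hkn]
    split_ifs with h'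
    · rfl
    · rw [hc, if_neg]
      intro hd'
      apply hkn
      have : (n.natAbs : ℤ) = n := Int.natAbs_of_nonneg (not_lt.mp h')
      rw [← this]
      exact_mod_cast hd'

theorem level_TInf_ne_zero (M : ℕ) [NeZero M] {g : ℍ → ℂ} (hg : g ∈ perSub M) (h0 : g ≠ 0) :
    TInf M ⟨g, hg⟩ ≠ 0 := by
  intro h
  apply h0
  have := TInf_injective M (h.trans (map_zero (TInf M)).symm)
  exact congrArg Subtype.val this

theorem level_discr_pow_ne_zero (k : ℕ) : (discriminant ^ k : ℍ → ℂ) ≠ 0 := by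
  intro h
  have := congrFun h I
  simp only [Pi.pow_apply, Pi.zero_apply] at this
  exact pow_ne_zero _ (discriminant_ne_zero _) this

theorem TInf_level {d M : ℕ} [NeZero d] [NeZero M] (h : d ∣ M) [NeZero (M / d)] (f : perSub d) :
    TInf M ⟨f.1, perSub_le_of_dvd h f.2⟩ = ModularCurve.qExpand ℂ (M / d) (TInf d f) := by
  obtain ⟨k, hk⟩ := f.2
  have hD : IsBd d (discriminant ^ k) := (isBd_discriminant d).pow k
  have hbd : ∀ (g : ℍ → ℂ) (hg : IsBd d g),
      TInf M ⟨g, (level_isBd_of_dvd h hg).isPer⟩ =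
        ModularCurve.qExpand ℂ (M / d) (TInf d ⟨g, hg.isPer⟩) := by
    intro g hg
    rw [TInf_of_isBd M _ (level_isBd_of_dvd h hg), TInf_of_isBd d _ hg]
    exact level_qExpansion h hg
  have e1 : (⟨f.1, perSub_le_of_dvd h f.2⟩ : perSub M) *
      ⟨discriminant ^ k, (level_isBd_of_dvd h hD).isPer⟩ =
      ⟨f.1 * discriminant ^ k, (level_isBd_of_dvd h hk).isPer⟩ := rfl
  have e2 : f * (⟨discriminant ^ k, hD.isPer⟩ : perSub d) =
      ⟨f.1 * discriminant ^ k, hk.isPer⟩ := rfl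
  have h1 := congrArg (TInf M) e1
  have h2 := congrArg (TInf d) e2
  rw [map_mul, hbd _ hD, hbd _ hk, ← h2, map_mul, map_mul] at h1
  refine mul_right_cancel₀ ?_ h1
  rw [← hbd _ hD]
  exact level_TInf_ne_zero M _ (level_discr_pow_ne_zero k)

theorem level_periodic_one {g : ℍ → ℂ} (hT : act ModularGroup.T g = g) :
    Function.Periodic (g ∘ ofComplex) (((1 : ℕ) : ℝ) : ℂ) := by
  intro z
  by_cases hz : 0 < z.im
  · have hz' : 0 < (z + (((1 : ℕ) : ℝ) : ℂ)).im := by simpa using hz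
    have h1 := expA_act_T_ofComplex g hz'
    rw [hT] at h1
    rw [h1]
    congr 1
    push_cast
    ring
  · have hz1 : z.im ≤ 0 := not_lt.mp hz
    have hz' : (z + (((1 : ℕ) : ℝ) : ℂ)).im ≤ 0 := by simpa using hz1
    simp only [Function.comp_apply]
    rw [ofComplex_apply_of_im_nonpos hz1, ofComplex_apply_of_im_nonpos hz']

/-- an element of `perSub N` which is invariant under `T` is in `perSub 1`. -/
theorem mem_perSub_one {N : ℕ} [Cond N] {f : ℍ → ℂ} (hf : f ∈ perSub N) (hT : act ModularGroup.T f = f) :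
    f ∈ perSub 1 := by
  obtain ⟨m, hm⟩ := hf
  refine ⟨m, level_periodic_one ?_, hm.2.1, hm.2.2⟩
  rw [map_mul, map_pow, hT, expA_act_T_discriminant]

theorem level_pre_mul (a b δ : ℕ) (f g : ℍ → ℂ) : pre a b δ (f * g) = pre a b δ f * pre a b δ g :=
  rfl

theorem level_pre_pow (a b δ : ℕ) (f : ℍ → ℂ) (k : ℕ) : pre a b δ (f ^ k) = pre a b δ f ^ k :=
  rfl

theorem pre_mem_perSub {f : ℍ → ℂ} (hf : f ∈ perSub 1) {M a b δ : ℕ} [NeZero M] (ha : 0 < a)
    (hδ : 0 < δ) (hδM : δ ∣ M) : pre a b δ f ∈ perSub M := by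
  obtain ⟨k, hk⟩ := hf
  refine ⟨a * k, ?_⟩
  have h1 : IsBd M (pre a b δ (f * discriminant ^ k)) := isBd_pre hk ha hδ hδM
  have h2 := (expandC_isBd_quot b ha hδ hδM).pow k
  have h3 := h1.mul h2
  convert h3 using 1
  funext z
  simp only [Pi.mul_apply, Pi.pow_apply, pre]
  have : discriminant (ofComplex (((a : ℂ) * z + b) / δ)) ≠ 0 := discriminant_ne_zero _
  rw [div_pow, pow_mul]
  field_simp

theorem TInf_pre {f : ℍ → ℂ} (hf : f ∈ perSub 1) {M a b δ : ℕ} [NeZero M] (ha : 0 < a)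
    (hδ : 0 < δ) (hδM : δ ∣ M) [NeZero (a * (M / δ))] :
    TInf M ⟨pre a b δ f, pre_mem_perSub hf ha hδ hδM⟩ =
      ModularCurve.qExpand ℂ (a * (M / δ)) (twist (rootU δ b) (TInf 1 ⟨f, hf⟩)) := by
  obtain ⟨k, hk⟩ := hf
  have hD : IsBd 1 (discriminant ^ k) := (isBd_discriminant 1).pow k
  have hbd : ∀ (g : ℍ → ℂ) (hg : IsBd 1 g),
      TInf M ⟨pre a b δ g, (isBd_pre hg ha hδ hδM).isPer⟩ =
        ModularCurve.qExpand ℂ (a * (M / δ)) (twist (rootU δ b) (TInf 1 ⟨g, hg.isPer⟩)) := by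
    intro g hg
    rw [TInf_of_isBd M _ (isBd_pre hg ha hδ hδM), TInf_of_isBd 1 _ hg]
    have := qExpansion_pre (b := b) hg ha hδ hδM
    simpa only [Nat.cast_one] using this
  have e1 : (⟨pre a b δ f, pre_mem_perSub ⟨k, hk⟩ ha hδ hδM⟩ : perSub M) *
      ⟨pre a b δ (discriminant ^ k), (isBd_pre hD ha hδ hδM).isPer⟩ =
      ⟨pre a b δ (f * discriminant ^ k), (isBd_pre hk ha hδ hδM).isPer⟩ := rfl
  have e2 : (⟨f, ⟨k, hk⟩⟩ : perSub 1) * (⟨discriminant ^ k, hD.isPer⟩ : perSub 1) =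
      ⟨f * discriminant ^ k, hk.isPer⟩ := rfl
  have h1 := congrArg (TInf M) e1
  have h2 := congrArg (TInf 1) e2
  rw [map_mul, hbd _ hD, hbd _ hk, ← h2, map_mul, map_mul, map_mul] at h1
  refine mul_right_cancel₀ ?_ h1
  rw [← hbd _ hD]
  refine level_TInf_ne_zero M _ ?_
  intro h
  have := congrFun h I
  simp only [pre, Pi.pow_apply, Pi.zero_apply] at this
  exact pow_ne_zero _ (discriminant_ne_zero _) this

end Fermat.Agent.T24.NV
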