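import Fermat.Agent.S48.TNV.Rational
import Fermat.Agent.S48.TNV.PowC
import Fermat.Agent.S18.H.Roots

set_option autoImplicit false

/-!
# NV task K4b-PowB

Over `ℚ̄`: a function with trivial character is an `m`-th power.

SKETCH.  `hasChar_toC` + `exists_pow_of_hasChar_one_C`: `iotaF f = W ^ m` in `F_ℂ`.  So the order of the series `f.1` is `m * k`, and `f.1` has an `m`-th root `r` in `LaurentSeries Kb`
(`Kb` algebraically closed of characteristic `0`: `Fermat.Agent.S18.H.exists_pow_eq`-type lemma in `Fermat/Agent/S18/H/Roots.lean` (task H3-Roots), or Hensel/binomial series directly).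
`(coeffMap iotaKC r) ^ m = W.1 ^ m` in the field `LaurentSeries Kc`, so `coeffMap iotaKC r = ζ W.1` with `ζ ^ m = 1` a constant... (roots of `X ^ m - W ^ m` in a field containing a primitive `m`-th root of unity `ζ₀ ∈ Kc`: they are the `C (ζ₀ ^ i) * W`); constants are in `TC24.mffC N`, so
`coeffMap iotaKC r ∈ TC24.mffC N`, and `r ∈ F_ℚ̄` by `mem_of_coeffMap_mem`.
-/

open UpperHalfPlane ModularForm CongruenceSubgroup
open scoped MatrixGroups Manifold

namespace Fermat.Agent.T24.NV

open Fermat.Agent.S24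

namespace PowB

open ModularCurve

theorem order_coeffMap' {k k' : Type*} [Field k] [Field k'] (ι : k →+* k') (x : LaurentSeries k) :
    (coeffMap ι x).order = x.order := by
  by_cases hx : x = 0
  · simp [hx]
  have hx' : coeffMap ι x ≠ 0 := by
    rw [Ne, map_eq_zero]; exact hx
  apply le_antisymm
  · apply HahnSeries.order_le_of_coeff_ne_zero
    rw [coeffMap_coeff, Ne, map_eq_zero, ← HahnSeries.leadingCoeff_eq]
    exact HahnSeries.leadingCoeff_ne_zero.2 hx
  · apply HahnSeries.order_le_of_coeff_ne_zero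
    have := HahnSeries.leadingCoeff_ne_zero.2 hx'
    rw [HahnSeries.leadingCoeff_eq, coeffMap_coeff, Ne, map_eq_zero] at this
    exact this

end PowB

theorem exists_pow_of_hasChar_one {N : ℕ} [NeZero N] [Cond N] {m : ℕ} (hm : 0 < m) {f : FN N}
    (h : Ch.HasChar N m f 1) : ∃ w : FN N, f = w ^ m := by
  obtain ⟨W, hW⟩ := exists_pow_of_hasChar_one_C hm (hasChar_toC h)
  have hW' : (W.1) ^ m = ModularCurve.coeffMap iotaKC f.1 := by
    rw [← coe_iotaF, hW]
    rfl
  have hord : (m : ℤ) ∣ f.1.order := by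
    rw [← PowB.order_coeffMap' iotaKC, ← hW', HahnSeries.order_pow]
    exact ⟨W.1.order, by simp⟩
  obtain ⟨r, hr⟩ := Fermat.Agent.S18.H.mem_range_of_pow_eq (ModularCurve.coeffMap iotaKC) m hm f.1
    hord W.1 hW'
  have hrmem : r ∈ T24.modularFunctionFieldBar N :=
    mem_of_coeffMap_mem N r (hr ▸ W.2)
  refine ⟨⟨r, hrmem⟩, Subtype.ext ?_⟩
  apply (ModularCurve.coeffMap iotaKC).injective
  change ModularCurve.coeffMap iotaKC f.1 = ModularCurve.coeffMap iotaKC (r ^ m)
  rw [map_pow, hr, hW']

end Fermat.Agent.T24.NV
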