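import Fermat.Agent.S48.TNV.Surj
import Fermat.Agent.S48.TNV.PowB
import Fermat.Agent.S48.TNV.Kb.Small
import Fermat.Agent.S48.TNV.Kb.DivA
import Fermat.Agent.S48.TNV.Kb.Exists
import Fermat.Agent.GES.Kummer
import Fermat.Agent.S16.Lift

set_option autoImplicit false

/-!
# NV task E2-Kappa

The isomorphism `κ_m : Hom_par (Γ₀(N), ℤ) / m ≃ V_m(N)`: `κ_m ψ` is the class of any `f` with character `γ ↦ exp (2 π i ψ γ / m)`.

SKETCHES.
* `smallTriv_expChr`: `ψ` kills the elements of small trace (`Fermat.Agent.S16.lift_small_of_parabolic` applied to `Int.castAddHom ℂ ∘ ψ`, or directly: `γ ^ 12 = 1` by `lift_pow_twelve`), `rootU_zero`.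
* `expChr_eq_one_iff`: `exp (2 π i b / m) = 1 ↔ m ∣ b` (`Complex.exp_eq_one_iff`).
* `exists_rep`: `exists_hasChar_of_smallTriv` + `Ch.HasChar.divBy` + `Ch.HasChar.ne_zero`.
* `kappa` additive, `kappa_eq_mk_iff`: if `f, f'` have the same character then `f * f'⁻¹` has character `1` (`HasChar.mul`, `HasChar.inv`), so it is an `m`-th power (`exists_pow_of_hasChar_one`), `Vm.mk_eq_mk_iff`;
  conversely `HasChar.mul_pow`.
* `kappa_ker`: `f = w ^ m` has character `1` (`Ch.hasChar_pow`); `HasChar.unique`; `expChr_eq_one_iff`; divide `ψ` by `m` (values in `m ℤ`; `ψ' γ = ψ γ / m` is additive and parabolic).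
* `kappa_surjective`: `Ch.exists_hasChar`, `Ch.HasChar.smallTriv`, `Ch.HasChar.pow_eq_one`; then `Fermat.Agent.S16.exists_int_lift` with `A = Additive ℂˣ`, `μ = χ`, `a = ofMul (rootU m 1)`
  (an element `x : ℂˣ` with `x ^ m = 1` is a power of the primitive root `rootU m 1`: `IsPrimitiveRoot.eq_pow_of_pow_eq_one`, `Complex.isPrimitiveRoot_exp`), `rootU m 1 ^ k = rootU m k`.
* `kappa_hecke`: `hasChar_heckeF`, `heckeChr_expChr`, `GES.TV_mk`.
* `kappa_trans`: `Ch.HasChar.of_mul`, `expChr N (m' * d) ψ ^ d = expChr N m' ψ`, `GES.Vm.trans_mk`.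
-/

open UpperHalfPlane ModularForm CongruenceSubgroup ModularCurve.Period
open scoped MatrixGroups Manifold

namespace Fermat.Agent.T24.NV

open Fermat.Agent.S24 Fermat.Agent.S16

/-- Kummer classes on `X(Gam N)` (`= GES1.VB (T24.modularFunctionFieldFull N) m`). -/
abbrev VN (N m : ℕ) [Cond N] : Type := GES.Vm Kb (FN N) m

/-- functions with divisor divisible by `m` (`= GES1.DB (T24.modularFunctionFieldFull N) m`). -/
noncomputable abbrev DN (N m : ℕ) [Cond N] : Subgroup (FN N)ˣ := GES.divBy Kb (FN N) m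

theorem lift_small_of_parabolic' (Γ : Subgroup SL(2, ℤ)) (φ : Additive Γ →+ ℂ)
    (h : IsParabolicHom Γ φ) (γ : Γ) (hγ : SmallTrace (γ : SL(2, ℤ))) :
    φ (Additive.ofMul γ) = 0 := by
  by_cases h4 : ((γ : SL(2, ℤ)) : Matrix (Fin 2) (Fin 2) ℤ).trace ^ 2 = 4
  · exact h γ h4
  · have h12 : γ ^ 12 = 1 := Subtype.ext (by simpa using lift_pow_twelve γ hγ h4)
    have h0 : 12 • φ (Additive.ofMul γ) = 0 := by
      rw [← map_nsmul, ← ofMul_pow, h12, ofMul_one, map_zero]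
    simpa using h0

/-- the lattice `Hom_par (Gam N, ℤ)` (`= PER1.Lat (Gam N)`). -/
abbrev LatN (N : ℕ) [Cond N] : Type := parabolicHoms ℤ (Gam N) ℤ

theorem smallTriv_expChr (N m : ℕ) [Cond N] (ψ : LatN N) : SmallTriv N (expChr N m ψ.1) := by
  intro γ hγ
  have hpar : IsParabolicHom (Gam N) ((Int.castAddHom ℂ).comp ψ.1) := by
    intro δ hδ
    have := ψ.2 δ hδ
    simp [this]
  have h0 := lift_small_of_parabolic' (Gam N) _ hpar γ hγ
  have h1 : ψ.1 (Additive.ofMul γ) = 0 := by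
    have : ((ψ.1 (Additive.ofMul γ) : ℤ) : ℂ) = 0 := h0
    exact_mod_cast this
  rw [expChr_apply, h1, rootU_zero]

theorem expChr_add (N m : ℕ) [Cond N] (ψ ψ' : Additive (Gam N) →+ ℤ) :
    expChr N m (ψ + ψ') = expChr N m ψ * expChr N m ψ' := by
  ext γ
  rw [MonoidHom.mul_apply, expChr_apply, expChr_apply, expChr_apply, AddMonoidHom.add_apply,
    rootU_add]

theorem expChr_pow (N m : ℕ) [Cond N] (hm : 0 < m) (ψ : Additive (Gam N) →+ ℤ) :
    expChr N m ψ ^ m = 1 := by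
  ext γ
  rw [MonoidHom.pow_apply, expChr_apply, MonoidHom.one_apply, Units.val_pow_eq_pow_val,
    rootU_pow m hm.ne', Units.val_one]

theorem expChr_eq_one_iff (N m : ℕ) [Cond N] (hm : 0 < m) (ψ : Additive (Gam N) →+ ℤ) :
    expChr N m ψ = 1 ↔ ∀ γ, (m : ℤ) ∣ ψ γ := by
  have key : ∀ b : ℤ, rootU m b = 1 ↔ (m : ℤ) ∣ b := by
    intro b
    have hm' : (m : ℂ) ≠ 0 := by exact_mod_cast hm.ne'
    rw [← Units.val_inj, Units.val_one]
    show Complex.exp (2 * Real.pi * Complex.I * b / m) = 1 ↔ _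
    rw [Complex.exp_eq_one_iff]
    constructor
    · rintro ⟨n, hn⟩
      refine ⟨n, ?_⟩
      have h2 : (2 * Real.pi * Complex.I : ℂ) ≠ 0 := Complex.two_pi_I_ne_zero
      have h3 : (b : ℂ) = m * n := by
        field_simp at hn
        exact hn
      exact_mod_cast h3
    · rintro ⟨n, rfl⟩
      refine ⟨n, ?_⟩
      push_cast
      field_simp
  constructor
  · intro h γ
    have := congrArg (fun χ : Chr N => χ (Additive.toMul γ)) h
    simp only [MonoidHom.one_apply, expChr_apply] at this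
    exact (key _).mp this
  · intro h
    ext γ
    rw [expChr_apply, (key _).mpr (h _), MonoidHom.one_apply]

theorem expChr_mul_pow (N m' d : ℕ) [Cond N] (hd : 0 < d) (ψ : Additive (Gam N) →+ ℤ) :
    expChr N (m' * d) ψ ^ d = expChr N m' ψ := by
  ext γ
  rw [MonoidHom.pow_apply, expChr_apply, expChr_apply, Units.val_pow_eq_pow_val]
  show Complex.exp _ ^ d = Complex.exp _
  rw [← Complex.exp_nat_mul]
  congr 1
  have hd' : (d : ℂ) ≠ 0 := by exact_mod_cast hd.ne'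
  rcases Nat.eq_zero_or_pos m' with rfl | hm'
  · simp
  have hm'' : (m' : ℂ) ≠ 0 := by exact_mod_cast hm'.ne'
  push_cast
  field_simp

theorem exists_rep (N m : ℕ) [NeZero N] [NeZero m] [Cond N] (ψ : LatN N) :
    ∃ f : DN N m, Ch.HasChar N m ((f : (FN N)ˣ) : FN N) (expChr N m ψ.1) := by
  have hm : 0 < m := Nat.pos_of_ne_zero (NeZero.ne m)
  obtain ⟨f, hf⟩ := exists_hasChar_of_smallTriv N m hm _ (smallTriv_expChr N m ψ)
    (expChr_pow N m hm ψ.1)
  exact ⟨⟨Units.mk0 f hf.ne_zero, fun v => hf.divBy hm (smallTriv_expChr N m ψ) v⟩, hf⟩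

/-- a representative of `κ_m ψ`. -/
noncomputable def kappaRep (N m : ℕ) [NeZero N] [NeZero m] [Cond N] (ψ : LatN N) : DN N m :=
  (exists_rep N m ψ).choose

theorem kappaRep_spec (N m : ℕ) [NeZero N] [NeZero m] [Cond N] (ψ : LatN N) :
    Ch.HasChar N m ((kappaRep N m ψ : (FN N)ˣ) : FN N) (expChr N m ψ.1) :=
  (exists_rep N m ψ).choose_spec

/-- two functions with the same character define the same Kummer class. -/
theorem mk_eq_mk_of_hasChar (N m : ℕ) [NeZero N] [NeZero m] [Cond N] (f f' : DN N m) (χ : Chr N)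
    (h : Ch.HasChar N m ((f : (FN N)ˣ) : FN N) χ) (h' : Ch.HasChar N m ((f' : (FN N)ˣ) : FN N) χ) :
    (GES.Vm.mk f : VN N m) = GES.Vm.mk f' := by
  have hm : 0 < m := Nat.pos_of_ne_zero (NeZero.ne m)
  have h1 := h.mul (h'.inv hm)
  rw [mul_inv_cancel χ] at h1
  obtain ⟨w, hw⟩ := exists_pow_of_hasChar_one hm h1
  have hw0 : w ≠ 0 := by
    rintro rfl
    rw [zero_pow hm.ne'] at hw
    exact h1.ne_zero hw
  rw [GES.Vm.mk_eq_mk_iff]
  refine ⟨Units.mk0 w hw0, Units.ext ?_⟩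
  rw [Units.val_pow_eq_pow_val, Units.val_mk0, ← hw, Units.val_div_eq_div_val, div_eq_mul_inv]

/-- the map `κ_m`. -/
noncomputable def kappa (N m : ℕ) [NeZero N] [NeZero m] [Cond N] : LatN N →+ VN N m :=
  AddMonoidHom.mk' (fun ψ => GES.Vm.mk (kappaRep N m ψ)) (by
    intro ψ ψ'
    rw [← GES.Vm.mk_mul]
    refine mk_eq_mk_of_hasChar N m _ _ _ (kappaRep_spec N m (ψ + ψ')) ?_
    have h := (kappaRep_spec N m ψ).mul (kappaRep_spec N m ψ')
    rw [← expChr_add] at h
    exact h)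

theorem kappa_apply (N m : ℕ) [NeZero N] [NeZero m] [Cond N] (ψ : LatN N) :
    kappa N m ψ = GES.Vm.mk (kappaRep N m ψ) := rfl

theorem kappa_eq_mk_iff (N m : ℕ) [NeZero N] [NeZero m] [Cond N] (ψ : LatN N) (f : DN N m) :
    kappa N m ψ = GES.Vm.mk f ↔ Ch.HasChar N m ((f : (FN N)ˣ) : FN N) (expChr N m ψ.1) := by
  constructor
  · intro h
    rw [kappa_apply, eq_comm, GES.Vm.mk_eq_mk_iff] at h
    obtain ⟨w, hw⟩ := h
    have h1 := (kappaRep_spec N m ψ).mul_pow (w : FN N) w.ne_zero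
    have h2 : ((kappaRep N m ψ : (FN N)ˣ) : FN N) * (w : FN N) ^ m = ((f : (FN N)ˣ) : FN N) := by
      rw [← Units.val_pow_eq_pow_val, hw, Units.val_div_eq_div_val]
      field_simp
    rwa [h2] at h1
  · intro h
    exact mk_eq_mk_of_hasChar N m _ _ _ (kappaRep_spec N m ψ) h

end Fermat.Agent.T24.NV
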