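import Mathlib

set_option autoImplicit false

/-!
# NV task A1a-RootBall  (Mathlib only)

`m`-th roots of analytic functions on a disc.

SKETCH.  `Y` is analytic on a neighbourhood of the compact set `U = closedBall c r` and not
identically zero, so it has finitely many zeros in `U`.
`MeromorphicOn.extract_zeros_poles` (Mathlib.Analysis.Meromorphic.FactorizedRational; analytic
functions are in normal form: `AnalyticOnNhd.meromorphicNFOn`; the support of the divisor is finite by
`Function.locallyFinsuppWithin.finiteSupport _ (isCompact_closedBall _ _)`; the orders are `≠ ⊤` by the identity theorem on the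
preconnected set `U`) gives `Y = (∏ᶠ u, (· - u) ^ divisor Y U u) • g` with `g` analytic and without
zeros on `U`.  By hypothesis `divisor Y U u = m * n u`.
On the open ball, `g'/g` is holomorphic, hence has a primitive `G`
(`DifferentiableOn.isExactOn_ball` / `Complex.IsExactOn`, or whatever the current name is: every holomorphic function on a
disc has a primitive), `g * exp (-G)` has derivative `0`, so `g = C * exp G`, `C ≠ 0`, `C = exp C'`, and
`H = (∏ᶠ u, (· - u) ^ n u) * exp ((G + C') / m)` works.
-/

open Metric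

namespace Fermat.Agent.T24.NV

/-- a nowhere vanishing holomorphic function on a disc is an exponential. -/
theorem exists_log_on_ball (c : ℂ) (r : ℝ) (g : ℂ → ℂ) (hg : DifferentiableOn ℂ g (ball c r))
    (h0 : ∀ z ∈ ball c r, g z ≠ 0) :
    ∃ G : ℂ → ℂ, DifferentiableOn ℂ G (ball c r) ∧ ∀ z ∈ ball c r, g z = Complex.exp (G z) := by
  by_cases hr : 0 < r
  swap
  · refine ⟨0, differentiableOn_const _, fun z hz => ?_⟩
    rw [ball_eq_empty.2 (not_lt.1 hr)] at hz
    exact hz.elim
  have hc : c ∈ ball c r := mem_ball_self hr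
  have hd : DifferentiableOn ℂ (fun z => deriv g z / g z) (ball c r) :=
    (hg.deriv isOpen_ball).div hg h0
  obtain ⟨G₀, hG₀⟩ := hd.isExactOn_ball
  have hgd : ∀ z ∈ ball c r, HasDerivAt g (deriv g z) z := fun z hz =>
    (hg.differentiableAt (isOpen_ball.mem_nhds hz)).hasDerivAt
  have hF : ∀ z ∈ ball c r, HasDerivAt (fun w => g w * Complex.exp (-G₀ w)) 0 z := by
    intro z hz
    have h1 := (hgd z hz).mul ((hG₀ z hz).neg.cexp)
    have h2 : deriv g z * Complex.exp ((-G₀) z) +
        g z * (Complex.exp ((-G₀) z) * -(fun z => deriv g z / g z) z) = 0 := by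
      have := h0 z hz
      simp only
      field_simp
      ring
    rw [h2] at h1
    exact h1
  have hconst : ∀ z ∈ ball c r, g z * Complex.exp (-G₀ z) = g c * Complex.exp (-G₀ c) := by
    intro z hz
    exact isOpen_ball.is_const_of_deriv_eq_zero (convex_ball c r).isPreconnected
      (fun w hw => (hF w hw).differentiableAt.differentiableWithinAt)
      (fun w hw => (hF w hw).deriv) hz hc
  set C : ℂ := g c * Complex.exp (-G₀ c) with hC
  have hC0 : C ≠ 0 := mul_ne_zero (h0 c hc) (Complex.exp_ne_zero _)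
  refine ⟨fun z => G₀ z + Complex.log C, ?_, fun z hz => ?_⟩
  · exact fun z hz => ((hG₀ z hz).differentiableAt.add_const _).differentiableWithinAt
  · rw [Complex.exp_add, Complex.exp_log hC0, ← hconst z hz, mul_comm, mul_assoc, ← Complex.exp_add]
    simp

theorem exists_root_on_ball (m : ℕ) (hm : 0 < m) (c : ℂ) (r : ℝ) (hr : 0 < r) (Y : ℂ → ℂ)
    (hY : AnalyticOnNhd ℂ Y (closedBall c r)) (hne : ∃ z ∈ closedBall c r, Y z ≠ 0)
    (hord : ∀ z ∈ closedBall c r, ∃ k : ℕ, analyticOrderAt Y z = ((m * k : ℕ) : ℕ∞)) :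
    ∃ H : ℂ → ℂ, DifferentiableOn ℂ H (ball c r) ∧ ∀ z ∈ ball c r, H z ^ m = Y z := by
  set U : Set ℂ := closedBall c r with hU
  have hmer : MeromorphicOn Y U := hY.meromorphicOn
  have htop : ∀ u : U, meromorphicOrderAt Y u ≠ ⊤ := by
    rintro ⟨u, hu⟩
    obtain ⟨k, hk⟩ := hord u hu
    rw [(hY u hu).meromorphicOrderAt_eq, hk]
    exact WithTop.coe_ne_top
  have hfin : (MeromorphicOn.divisor Y U).support.Finite :=
    (MeromorphicOn.divisor Y U).finiteSupport (isCompact_closedBall c r)
  obtain ⟨g, hg, hg0, hgY⟩ := hmer.extract_zeros_poles htop hfin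
  -- the exponents
  have hdiv : ∀ u : ℂ, ∃ k : ℕ, MeromorphicOn.divisor Y U u = ((m * k : ℕ) : ℤ) := by
    intro u
    by_cases hu : u ∈ U
    · obtain ⟨k, hk⟩ := hord u hu
      refine ⟨k, ?_⟩
      rw [MeromorphicOn.AnalyticOnNhd.divisor_apply hY hu, hk]
      rfl
    · refine ⟨0, ?_⟩
      rw [MeromorphicOn.divisor_def]
      simp [hu]
  choose n hn using hdiv
  set S : Finset ℂ := hfin.toFinset with hS
  have hprod : (∏ᶠ u, (fun z : ℂ => z - u) ^ MeromorphicOn.divisor Y U u) =
      fun z => (∏ u ∈ S, (z - u) ^ n u) ^ m := by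
    rw [finprod_eq_prod_of_mulSupport_subset (s := S)]
    · funext z
      rw [Finset.prod_apply, ← Finset.prod_pow]
      refine Finset.prod_congr rfl fun u _ => ?_
      rw [Pi.pow_apply, hn u, zpow_natCast, mul_comm, pow_mul]
    · intro u hu
      rw [Function.mem_mulSupport] at hu
      rw [hS, Set.Finite.coe_toFinset, Function.mem_support]
      intro h
      exact hu (by rw [h, zpow_zero])
  rw [hprod] at hgY
  have hP : AnalyticOnNhd ℂ (fun z : ℂ => (∏ u ∈ S, (z - u) ^ n u) ^ m) U := by
    intro z _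
    fun_prop
  have hcU : c ∈ U := mem_closedBall_self hr.le
  have heq : Set.EqOn Y ((fun z : ℂ => (∏ u ∈ S, (z - u) ^ n u) ^ m) • g) U := by
    refine hY.eqOn_of_preconnected_of_frequently_eq (hP.smul hg)
      (convex_closedBall c r).isPreconnected hcU ?_
    have h1 := (mem_codiscreteWithin_iff_forall_mem_nhdsNE.1 hgY) c hcU
    have h2 : U ∈ nhdsWithin c {c}ᶜ := mem_nhdsWithin_of_mem_nhds (closedBall_mem_nhds c hr)
    refine Filter.Eventually.frequently ?_
    filter_upwards [h1, h2] with z hz1 hz2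
    rcases hz1 with hz1 | hz1
    · exact hz1
    · exact absurd hz2 hz1
  obtain ⟨G, hG, hGg⟩ := exists_log_on_ball c r g
    (fun z hz => (hg z (ball_subset_closedBall hz)).differentiableAt.differentiableWithinAt)
    (fun z hz => hg0 ⟨z, ball_subset_closedBall hz⟩)
  refine ⟨fun z => (∏ u ∈ S, (z - u) ^ n u) * Complex.exp (G z / m), ?_, fun z hz => ?_⟩
  · refine DifferentiableOn.mul ?_ ?_
    · exact Differentiable.differentiableOn (by fun_prop)
    · exact (hG.div_const _).cexp
  · rw [heq (ball_subset_closedBall hz), mul_pow, ← Complex.exp_nat_mul,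
      mul_div_cancel₀ _ (Nat.cast_ne_zero.2 hm.ne'), ← hGg z hz]
    rfl

end Fermat.Agent.T24.NV
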